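import Fermat.Agent.S17.Defs
import Fermat.Agent.S27.A.Api

/-!
# S17 contract CNC: Northcott for `eta`
-/

set_option autoImplicit false

namespace Fermat.Agent.S17

open AlgebraicCurve ModularCurve Fermat.Agent.S24.FF Fermat.Agent.S27 Fermat.Agent.GAL.FF Polynomial

/-! ### rational elements of `ℚ̄` -/

theorem cnc_ratPart_algebraMap (q : ℚ) : ratPart (algebraMap ℚ Qb q) = q := by
  have h : ∃ q' : ℚ, algebraMap ℚ Qb q' = algebraMap ℚ Qb q := ⟨q, rfl⟩
  unfold ratPart
  rw [dif_pos h]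
  exact (algebraMap ℚ Qb).injective h.choose_spec

theorem cnc_algebraMap_ratPart {a : Qb} (h : ∃ q : ℚ, algebraMap ℚ Qb q = a) :
    algebraMap ℚ Qb (ratPart a) = a := by
  obtain ⟨q, rfl⟩ := h
  rw [cnc_ratPart_algebraMap]

theorem cnc_ratPart_zero : ratPart 0 = 0 := by
  have := cnc_ratPart_algebraMap 0
  rwa [map_zero] at this

theorem cnc_ratPart_one : ratPart 1 = 1 := by
  have := cnc_ratPart_algebraMap 1
  rwa [map_one] at this

theorem cnc_rat_of_fixed {a : Qb} (h : ∀ σ : GQ, σ a = a) : ∃ q : ℚ, algebraMap ℚ Qb q = a := by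
  haveI : IsAlgClosure ℚ Qb := ⟨inferInstance, AlgebraicClosure.isAlgebraic ℚ⟩
  haveI : IsGalois ℚ Qb := IsAlgClosure.isGalois ℚ Qb
  exact (InfiniteGalois.mem_range_algebraMap_iff_fixed a).2 h

/-! ### Northcott for monic polynomials -/

theorem cnc_logHeight₁_coeff_le {p : Qb[X]} (hp : p.Monic) (i : ℕ) :
    Height.logHeight₁ (ratPart (p.coeff i)) ≤ polyHt p := by
  by_cases hi : i < p.natDegree + 1
  · rw [Height.logHeight₁_eq_logHeight]
    have h := Height.logHeight_comp_le (![⟨i, hi⟩, Fin.last p.natDegree] : Fin 2 → Fin (p.natDegree + 1))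
      (fun i : Fin (p.natDegree + 1) => ratPart (p.coeff i))
    have e : (fun i : Fin (p.natDegree + 1) => ratPart (p.coeff i)) ∘
        (![⟨i, hi⟩, Fin.last p.natDegree] : Fin 2 → Fin (p.natDegree + 1))
        = ![ratPart (p.coeff i), 1] := by
      funext j
      fin_cases j
      · simp
      · simp [hp.coeff_natDegree, cnc_ratPart_one]
    rw [e] at h
    exact h
  · rw [Polynomial.coeff_eq_zero_of_natDegree_lt (by omega), cnc_ratPart_zero,
      Height.logHeight₁_zero]
    exact Height.logHeight_nonneg _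

theorem cnc_finite_poly (d : ℕ) (B : ℝ) :
    {p : Qb[X] | p.Monic ∧ p.natDegree ≤ d ∧ (∀ i, ∃ q : ℚ, algebraMap ℚ Qb q = p.coeff i) ∧
      polyHt p ≤ B}.Finite := by
  have hfin : (Set.pi Set.univ
      (fun _ : Fin (d + 1) => {q : ℚ | Height.logHeight₁ q ≤ B})).Finite :=
    Set.Finite.pi fun _ => NumberField.finite_setOfPred_logHeight₁_le ℚ B
  refine Set.Finite.of_injOn (f := fun p (i : Fin (d + 1)) => ratPart (p.coeff i)) ?_ ?_ hfin
  · rintro p ⟨hm, -, -, hB⟩ i -
    exact (cnc_logHeight₁_coeff_le hm i).trans hB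
  · rintro p ⟨-, hd, hr, -⟩ p' ⟨-, hd', hr', -⟩ h
    ext i
    by_cases hi : i < d + 1
    · have := congrFun h ⟨i, hi⟩
      simp only at this
      rw [← cnc_algebraMap_ratPart (hr i), ← cnc_algebraMap_ratPart (hr' i), this]
    · rw [Polynomial.coeff_eq_zero_of_natDegree_lt (by omega),
        Polynomial.coeff_eq_zero_of_natDegree_lt (by omega)]

namespace RatCurve

variable (X : RatCurve)

theorem cnc_val_smul (σ : GQ) (P : Place Qb X.F) {f : X.F} (hf : 0 ≤ P.ord f) :
    val (X.act σ • P) (X.act σ • f) = σ (val P f) := by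
  have hb : ∀ c : Qb, X.act σ • algebraMap Qb X.F c = algebraMap Qb X.F (σ c) := by
    intro c
    rw [SemilinearAut.smul_algebraMap, X.baseAut_act]
    rfl
  apply val_eq_of
  rcases val_spec P hf with h | h
  · left
    rw [← hb, ← h]
  · right
    rw [← hb, ← smul_sub, SemilinearAut.ord_smul]
    exact h

theorem cnc_ne_inf {A : Divisor Qb X.F} (hA : A ∈ X.DD) {P : Place Qb X.F} (hP : P ∈ A.support) :
    P ≠ X.inf := by
  rintro rfl
  exact (Finsupp.mem_support_iff.1 hP) hA.2.1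

theorem cnc_NA_monic (A : Divisor Qb X.F) : (X.NA A).Monic :=
  Polynomial.monic_prod_of_monic _ _ fun _ _ => (Polynomial.monic_X_sub_C _).pow _

theorem cnc_NA_natDegree (A : Divisor Qb X.F) :
    (X.NA A).natDegree = ∑ P ∈ A.support, (A P).toNat := by
  unfold NA Finsupp.prod
  rw [Polynomial.natDegree_prod_of_monic _ _ fun P _ => (Polynomial.monic_X_sub_C _).pow _]
  refine Finset.sum_congr rfl fun P _ => ?_
  rw [Polynomial.natDegree_pow, Polynomial.natDegree_X_sub_C, mul_one]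

theorem cnc_NA_natDegree_eq {A : Divisor Qb X.F} (hA : A ∈ X.DD) :
    (X.NA A).natDegree = X.degN A := by
  rw [cnc_NA_natDegree, degN]
  have h : Divisor.degree A = ((∑ P ∈ A.support, (A P).toNat : ℕ) : ℤ) := by
    rw [Nat.cast_sum]
    conv_lhs => rw [← Finsupp.sum_single A]
    rw [Finsupp.sum, map_sum]
    refine Finset.sum_congr rfl fun P _ => ?_
    rw [Divisor.degree_single, deg_eq_one, Nat.cast_one, mul_one, Int.toNat_of_nonneg (hA.1 P)]
  rw [h, Int.toNat_natCast]

theorem cnc_NA_map {A : Divisor Qb X.F} (hA : A ∈ X.DD) (σ : GQ) :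
    (X.NA A).map (σ : Qb →+* Qb) = X.NA A := by
  conv_rhs => rw [← hA.2.2 σ]
  unfold NA
  rw [SemilinearAut.divisor_smul_def,
    Finsupp.prod_mapDomain_index_inj (MulAction.injective (X.act σ))]
  unfold Finsupp.prod
  rw [Polynomial.map_prod]
  refine Finset.prod_congr rfl fun P hP => ?_
  have h := X.cnc_val_smul σ P (X.x_reg P (X.cnc_ne_inf hA hP))
  rw [X.x_fixed] at h
  simp only [h]
  simp

theorem cnc_NA_rat {A : Divisor Qb X.F} (hA : A ∈ X.DD) (i : ℕ) :
    ∃ q : ℚ, algebraMap ℚ Qb q = (X.NA A).coeff i := by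
  refine cnc_rat_of_fixed fun σ => ?_
  have h := congrArg (fun p => p.coeff i) (X.cnc_NA_map hA σ)
  simpa [Polynomial.coeff_map] using h

theorem cnc_m0_pos : 0 < X.m0 := by
  have := X.x_pole
  unfold m0
  omega

theorem cnc_x_ne (c : Qb) : X.x - algebraMap Qb X.F c ≠ 0 := by
  intro h
  have h1 : X.x = algebraMap Qb X.F c := sub_eq_zero.1 h
  have h2 := X.x_pole
  rw [h1, ord_algebraMap] at h2
  exact lt_irrefl _ h2

/-- the places where `x` takes a value which is a root of `p`. -/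
theorem cnc_finite_places (p : Qb[X]) :
    {P : Place Qb X.F | P ≠ X.inf ∧ val P X.x ∈ p.rootSet Qb}.Finite := by
  have h : {P : Place Qb X.F | P ≠ X.inf ∧ val P X.x ∈ p.rootSet Qb} ⊆
      ⋃ c ∈ p.rootSet Qb, {P : Place Qb X.F | P.ord (X.x - algebraMap Qb X.F c) ≠ 0} := by
    rintro P ⟨hP, hr⟩
    refine Set.mem_biUnion hr ?_
    rcases val_spec' P (X.x_reg P hP) with h | h
    · exact absurd h (X.cnc_x_ne _)
    · exact h.ne'
  exact (Set.Finite.biUnion (Polynomial.rootSet_finite p Qb) fun c _ =>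
    finite_support_ord _).subset h

theorem cnc_finite_fibre (p : Qb[X]) : {A | A ∈ X.DD ∧ X.NA A = p}.Finite := by
  classical
  set S : Finset (Place Qb X.F) := (X.cnc_finite_places p).toFinset with hS
  refine (Finset.finite_toSet (S.finsupp fun _ => Finset.Icc (0 : ℤ) p.natDegree)).subset ?_
  rintro A ⟨hA, rfl⟩
  rw [Finset.mem_coe, Finset.mem_finsupp_iff]
  constructor
  · intro P hP
    rw [hS, Set.Finite.mem_toFinset]
    refine ⟨X.cnc_ne_inf hA hP, ?_⟩
    rw [Polynomial.mem_rootSet_of_ne (X.cnc_NA_monic A).ne_zero, Polynomial.coe_aeval_eq_eval]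
    have hpos : 0 < (A P).toNat := by
      have h1 := hA.1 P
      have h2 := Finsupp.mem_support_iff.1 hP
      have h3 : (0 : ℤ) ≤ A P := h1
      omega
    unfold NA Finsupp.prod
    rw [Polynomial.eval_prod]
    refine Finset.prod_eq_zero hP ?_
    simp [hpos.ne']
  · intro P _
    rw [Finset.mem_Icc]
    refine ⟨hA.1 P, ?_⟩
    rw [cnc_NA_natDegree]
    by_cases hP : P ∈ A.support
    · have h1 : (A P).toNat ≤ ∑ P ∈ A.support, (A P).toNat :=
        Finset.single_le_sum (f := fun P => (A P).toNat) (fun _ _ => Nat.zero_le _) hP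
      have h3 : (0 : ℤ) ≤ A P := hA.1 P
      omega
    · rw [Finsupp.notMem_support_iff.1 hP]
      positivity

/-- **Contract CNC.** -/
theorem cnc : X.CNC := by
  intro d T
  refine Set.Finite.of_finite_fibers X.NA ?_ ?_
  · refine (cnc_finite_poly d (T * X.m0)).subset ?_
    rintro _ ⟨A, ⟨hA, hd, hT⟩, rfl⟩
    refine ⟨X.cnc_NA_monic A, by rw [X.cnc_NA_natDegree_eq hA]; exact hd, X.cnc_NA_rat hA, ?_⟩
    have hm : (0 : ℝ) < X.m0 := by exact_mod_cast X.cnc_m0_pos
    unfold eta at hT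
    rwa [div_le_iff₀ hm] at hT
  · intro p _
    refine (X.cnc_finite_fibre p).subset ?_
    rintro A ⟨⟨hA, -, -⟩, h⟩
    exact ⟨hA, h⟩

end RatCurve

end Fermat.Agent.S17
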