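import Mathlib

/-!
# S17 / SI : Siegel's lemma over `ℚ` (auxiliary file, Mathlib only)

`Y` is an `r × s` rational matrix whose maximal minors (Plücker coordinates) are coprime integers
`P S`.  Then the row space of `Y` contains a nonzero integral vector `t` with
`|t j| ≤ r B`, `B ^ r ≤ max |P S|`.
-/

set_option autoImplicit false

open Matrix

namespace Fermat.Agent.S17.SiegelAux

variable {r s : ℕ}

/-- the minor attached to a choice of columns. -/
noncomputable def mn {R : Type*} [CommRing R] (Y : Matrix (Fin r) (Fin s) R) (f : Fin r → Fin s) : R :=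
  (Y.submatrix id f).det

/-- every minor is `0` or `±` a minor attached to an increasing choice of columns. -/
theorem mn_eq {R : Type*} [CommRing R] (Y : Matrix (Fin r) (Fin s) R) (f : Fin r → Fin s) :
    mn Y f = 0 ∨ ∃ S : Fin r ↪o Fin s, mn Y f = mn Y S ∨ mn Y f = - mn Y S := by
  by_cases hf : Function.Injective f
  · right
    have hmono : Monotone (f ∘ Tuple.sort f) := Tuple.monotone_sort f
    have hinj : Function.Injective (f ∘ Tuple.sort f) := hf.comp (Tuple.sort f).injective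
    refine ⟨OrderEmbedding.ofStrictMono _ (hmono.strictMono_of_injective hinj), ?_⟩
    have h1 : mn Y (f ∘ Tuple.sort f) = ((Equiv.Perm.sign (Tuple.sort f) : ℤˣ) : ℤ) * mn Y f := by
      unfold mn
      rw [← Matrix.det_permute', Matrix.submatrix_submatrix]
      rfl
    rw [OrderEmbedding.coe_ofStrictMono, h1]
    rcases Int.units_eq_one_or (Equiv.Perm.sign (Tuple.sort f)) with h | h <;> rw [h] <;> simp
  · left
    rw [Function.Injective] at hf
    push Not at hf
    obtain ⟨i, j, hij, hne⟩ := hf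
    exact Matrix.det_zero_of_column_eq hne fun k => by simp [hij]

/-- Cramer's rule. -/
theorem adjugate_mul_apply {R : Type*} [CommRing R] (Y : Matrix (Fin r) (Fin s) R)
    (J : Fin r → Fin s) (i : Fin r) (j : Fin s) :
    ((Y.submatrix id J).adjugate * Y) i j = mn Y (Function.update J i j) := by
  have h1 : ((Y.submatrix id J).adjugate * Y) i j
      = ((Y.submatrix id J).adjugate *ᵥ (fun k => Y k j)) i := rfl
  rw [h1, ← Matrix.cramer_eq_adjugate_mulVec, Matrix.cramer_apply]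
  unfold mn
  congr 1
  ext k l
  rw [Matrix.updateCol_apply, Matrix.submatrix_apply, Matrix.submatrix_apply, Function.update_apply]
  split_ifs <;> rfl

theorem vecMul_comp {R : Type*} [CommRing R] (Y : Matrix (Fin r) (Fin s) R) (c : Fin r → R)
    (J : Fin r → Fin s) : (c ᵥ* Y) ∘ J = c ᵥ* (Y.submatrix id J) := rfl

/-- reconstruction of a vector of the row space from its `J`-coordinates. -/
theorem vecMul_adjugate {R : Type*} [CommRing R] (Y : Matrix (Fin r) (Fin s) R) (c : Fin r → R)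
    (J : Fin r → Fin s) :
    ((c ᵥ* Y) ∘ J) ᵥ* ((Y.submatrix id J).adjugate * Y) = mn Y J • (c ᵥ* Y) := by
  rw [vecMul_comp, Matrix.vecMul_vecMul, ← Matrix.mul_assoc, Matrix.mul_adjugate,
    Matrix.smul_mul, Matrix.one_mul, Matrix.vecMul_smul]
  rfl

/-! ### the index of a lattice containing the rows of an integral matrix -/

theorem index_dvd_det (E : Matrix (Fin r) (Fin r) ℤ) (M : AddSubgroup (Fin r → ℤ))
    (hM : ∀ a : Fin r → ℤ, a ᵥ* E ∈ M) : (M.index : ℤ) ∣ E.det := by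
  by_cases hdet : E.det = 0
  · rw [hdet]; exact dvd_zero _
  set f : (Fin r → ℤ) →ₗ[ℤ] (Fin r → ℤ) := Matrix.toLin' Eᵀ with hf
  have hfa : ∀ a, f a = a ᵥ* E := fun a => by
    rw [hf, Matrix.toLin'_apply, Matrix.mulVec_transpose]
  have hinj : Function.Injective f := by
    rw [← LinearMap.ker_eq_bot, LinearMap.ker_eq_bot']
    intro a ha
    rw [hf, Matrix.toLin'_apply] at ha
    exact Matrix.eq_zero_of_mulVec_eq_zero (by rwa [Matrix.det_transpose]) ha
  have h1 := Submodule.natAbs_det_equiv (LinearMap.range f) (LinearEquiv.ofInjective f hinj)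
  have h2 : (LinearMap.range f).subtype ∘ₗ AddMonoidHom.toIntLinearMap
      ((LinearEquiv.ofInjective f hinj : (Fin r → ℤ) ≃ₗ[ℤ] LinearMap.range f) :
        (Fin r → ℤ) →+ LinearMap.range f) = f := by
    ext a
    rfl
  rw [h2, hf, LinearMap.det_toLin', Matrix.det_transpose, ← Submodule.cardQuot_apply] at h1
  have h3 : (LinearMap.range f).toAddSubgroup ≤ M := by
    rintro _ ⟨a, rfl⟩
    rw [hfa]
    exact hM a
  have h4 : M.index ∣ E.det.natAbs := by
    rw [h1]
    exact AddSubgroup.index_dvd_of_le h3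
  exact Int.natCast_dvd.2 h4

/-- coprimality trick. -/
theorem dvd_of_forall_dvd_mul_pow {ι : Type*} [Fintype ι] (P : ι → ℤ) (hP : Finset.univ.gcd P = 1)
    (n a : ℤ) (k : ℕ) (h : ∀ J, n ∣ P J ^ k * a) : n ∣ a := by
  have h1 : Ideal.span (Set.range P) = ⊤ := by
    rw [Ideal.eq_top_iff_one]
    obtain ⟨g, hg⟩ := Finset.gcd_eq_sum_mul Finset.univ P
    rw [← hP, hg]
    exact Ideal.sum_mem _ fun J _ => Ideal.mul_mem_right _ _ (Ideal.subset_span ⟨J, rfl⟩)
  have h2 := Ideal.span_pow_eq_top _ h1 k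
  have h3 : Ideal.span ((fun x : ℤ => x ^ k) '' Set.range P)
      ≤ Submodule.comap (LinearMap.mulRight ℤ a) (Ideal.span {n}) := by
    rw [Ideal.span_le]
    rintro _ ⟨_, ⟨J, rfl⟩, rfl⟩
    show P J ^ k * a ∈ Ideal.span {n}
    rw [Ideal.mem_span_singleton]
    exact h J
  rw [h2] at h3
  have h4 : (1 : ℤ) ∈ Submodule.comap (LinearMap.mulRight ℤ a) (Ideal.span {n}) := h3 trivial
  have h5 : 1 * a ∈ Ideal.span {n} := h4
  rwa [one_mul, Ideal.mem_span_singleton] at h5

/-- the box principle. -/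
theorem exists_small_mem (M : AddSubgroup (Fin r → ℤ)) (hM : M.index ≠ 0) (B : ℕ)
    (hB : M.index < (B + 1) ^ r) : ∃ d ∈ M, d ≠ 0 ∧ ∀ i, |d i| ≤ B := by
  classical
  have : Finite ((Fin r → ℤ) ⧸ M) := by
    have : M.FiniteIndex := ⟨hM⟩
    infer_instance
  let _ : Fintype ((Fin r → ℤ) ⧸ M) := Fintype.ofFinite _
  have hcard : Fintype.card ((Fin r → ℤ) ⧸ M) < Fintype.card (Fin r → Fin (B + 1)) := by
    rw [← Nat.card_eq_fintype_card, ← AddSubgroup.index]
    simpa using hB
  obtain ⟨a, a', hne, heq⟩ := Fintype.exists_ne_map_eq_of_card_lt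
    (fun a : Fin r → Fin (B + 1) => (QuotientAddGroup.mk (fun i => ((a i : ℕ) : ℤ)) :
      (Fin r → ℤ) ⧸ M)) hcard
  rw [QuotientAddGroup.eq] at heq
  refine ⟨_, heq, ?_, ?_⟩
  · intro h0
    apply hne
    funext i
    have := congrFun h0 i
    simp only [Pi.add_apply, Pi.neg_apply, Pi.zero_apply] at this
    apply Fin.ext
    omega
  · intro i
    simp only [Pi.add_apply, Pi.neg_apply]
    have h1 := (a i).2
    have h2 := (a' i).2
    rw [abs_le]
    constructor <;> omega

theorem exists_root (H : ℕ) (hr : r ≠ 0) : ∃ B : ℕ, B ^ r ≤ H ∧ H < (B + 1) ^ r := by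
  classical
  refine ⟨Nat.findGreatest (fun b => b ^ r ≤ H) H, ?_, ?_⟩
  · exact Nat.findGreatest_spec (P := fun b => b ^ r ≤ H) (Nat.zero_le H) (by simp [hr])
  · by_contra hcon
    rw [not_lt] at hcon
    have h1 : Nat.findGreatest (fun b => b ^ r ≤ H) H + 1 ≤ H :=
      (Nat.le_self_pow hr _).trans hcon
    exact Nat.findGreatest_is_greatest (P := fun b => b ^ r ≤ H) (Nat.lt_succ_self _) h1 hcon

/-! ### the core statement -/

theorem core (hr : r ≠ 0) (Y : Matrix (Fin r) (Fin s) ℚ) (P : (Fin r ↪o Fin s) → ℤ)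
    (hP : Finset.univ.gcd P = 1) (hY : ∀ S : Fin r ↪o Fin s, mn Y S = (P S : ℚ)) (H : ℕ)
    (I : Fin r ↪o Fin s) (hI : |P I| = H) (hH : ∀ S, |P S| ≤ H) :
    ∃ (t : Fin s → ℤ) (c : Fin r → ℚ) (B : ℕ), t ≠ 0 ∧ (fun j => (t j : ℚ)) = c ᵥ* Y ∧
      B ^ r ≤ H ∧ ∀ j, |t j| ≤ r * B := by
  classical
  -- `H ≠ 0`
  have hH0 : H ≠ 0 := by
    rintro rfl
    have h0 : ∀ S ∈ (Finset.univ : Finset (Fin r ↪o Fin s)), P S = 0 := fun S _ => by
      have := hH S
      simpa using this
    rw [Finset.gcd_eq_zero_iff.2 h0] at hP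
    exact zero_ne_one hP
  have hPI0 : P I ≠ 0 := by
    intro h0
    rw [h0, abs_zero] at hI
    exact hH0 (by exact_mod_cast hI.symm)
  -- integrality of all minors
  have hint : ∀ f : Fin r → Fin s, ∃ z : ℤ, mn Y f = (z : ℚ) ∧ |z| ≤ H := by
    intro f
    rcases mn_eq Y f with h | ⟨S, h | h⟩
    · exact ⟨0, by simpa using h, by simp⟩
    · exact ⟨P S, by rw [h, hY], hH S⟩
    · exact ⟨- P S, by rw [h, hY]; simp, by rw [abs_neg]; exact hH S⟩
  choose Z hZ hZb using hint
  let W : (Fin r → Fin s) → Matrix (Fin r) (Fin s) ℤ := fun J =>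
    Matrix.of fun i j => Z (Function.update J i j)
  have hW : ∀ J, (W J).map (Int.castRingHom ℚ) = (Y.submatrix id J).adjugate * Y := by
    intro J
    ext i j
    rw [adjugate_mul_apply, hZ]
    rfl
  -- the lattice
  let Λ : AddSubgroup (Fin s → ℤ) :=
    { carrier := {t | ∃ c : Fin r → ℚ, (fun j => (t j : ℚ)) = c ᵥ* Y}
      add_mem' := by
        rintro t t' ⟨c, hc⟩ ⟨c', hc'⟩
        refine ⟨c + c', ?_⟩
        rw [Matrix.add_vecMul, ← hc, ← hc']
        funext j
        simp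
      zero_mem' := ⟨0, by rw [Matrix.zero_vecMul]; funext j; simp⟩
      neg_mem' := by
        rintro t ⟨c, hc⟩
        refine ⟨-c, ?_⟩
        rw [Matrix.neg_vecMul, ← hc]
        funext j
        simp }
  let π : (Fin s → ℤ) →+ (Fin r → ℤ) :=
    { toFun := fun t => t ∘ I
      map_zero' := rfl
      map_add' := fun _ _ => rfl }
  set M : AddSubgroup (Fin r → ℤ) := Λ.map π with hMdef
  have hrow : ∀ (J : Fin r → Fin s) (a : Fin r → ℤ), a ᵥ* (W J).submatrix id I ∈ M := by
    intro J a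
    refine ⟨a ᵥ* W J, ⟨(fun i => (a i : ℚ)) ᵥ* (Y.submatrix id J).adjugate, ?_⟩, rfl⟩
    rw [Matrix.vecMul_vecMul, ← hW]
    funext j
    exact RingHom.map_vecMul (Int.castRingHom ℚ) (W J) a j
  have hdet : ∀ J : Fin r ↪o Fin s, ((W J).submatrix id I).det = P J ^ (r - 1) * P I := by
    intro J
    have h1 : (((W J).submatrix id I).det : ℚ) = ((P J ^ (r - 1) * P I : ℤ) : ℚ) := by
      have h2 : ((W J).submatrix id I).map (Int.castRingHom ℚ)
          = (Y.submatrix id J).adjugate * Y.submatrix id I := by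
        rw [← Matrix.submatrix_map, hW]
        rfl
      have h3 := RingHom.map_det (Int.castRingHom ℚ) ((W J).submatrix id I)
      rw [RingHom.mapMatrix_apply, h2, Matrix.det_mul, Matrix.det_adjugate, Fintype.card_fin] at h3
      rw [eq_intCast] at h3
      rw [h3]
      have e1 : (Y.submatrix id J).det = (P J : ℚ) := hY J
      have e2 : (Y.submatrix id I).det = (P I : ℚ) := hY I
      rw [e1, e2]
      push_cast
      ring
    exact_mod_cast h1
  have hidx : (M.index : ℤ) ∣ P I := by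
    refine dvd_of_forall_dvd_mul_pow P hP _ _ (r - 1) fun J => ?_
    rw [← hdet J]
    exact index_dvd_det _ M (hrow J)
  have hidx0 : M.index ≠ 0 := by
    intro h0
    rw [h0, Nat.cast_zero, zero_dvd_iff] at hidx
    exact hPI0 hidx
  have hidxle : M.index ≤ H := by
    have h1 : (M.index : ℤ) ≤ |P I| := Int.le_of_dvd (abs_pos.2 hPI0) ((dvd_abs _ _).2 hidx)
    rw [hI] at h1
    exact_mod_cast h1
  obtain ⟨B, hB1, hB2⟩ := exists_root (r := r) H hr
  obtain ⟨d, ⟨t, ⟨c, hc⟩, htd⟩, hd0, hdB⟩ := exists_small_mem M hidx0 B (lt_of_le_of_lt hidxle hB2)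
  have htd' : ∀ i, t (I i) = d i := fun i => congrFun htd i
  refine ⟨t, c, B, ?_, hc, hB1, fun j => ?_⟩
  · rintro rfl
    apply hd0
    rw [← htd]
    rfl
  · have h1 := congrFun (vecMul_adjugate Y c I) j
    rw [← hc, ← hW, hY] at h1
    have h2 : (∑ i, d i * W I i j : ℤ) = P I * t j := by
      have : ((∑ i, d i * W I i j : ℤ) : ℚ) = ((P I * t j : ℤ) : ℚ) := by
        push_cast
        rw [Pi.smul_apply, smul_eq_mul] at h1
        rw [← h1]
        simp only [Matrix.vecMul, dotProduct, Function.comp, Matrix.map_apply, htd',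
          eq_intCast]
      exact_mod_cast this
    have h3 : |P I| * |t j| ≤ |P I| * (r * B) := by
      rw [← abs_mul, ← h2, hI]
      calc |∑ i, d i * W I i j| ≤ ∑ i, |d i * W I i j| := Finset.abs_sum_le_sum_abs _ _
        _ ≤ ∑ _i : Fin r, (B : ℤ) * H := by
            refine Finset.sum_le_sum fun i _ => ?_
            rw [abs_mul]
            exact mul_le_mul (hdB i) (hZb _) (abs_nonneg _) (by positivity)
        _ = H * (r * B) := by
            rw [Finset.sum_const, Finset.card_univ, Fintype.card_fin, nsmul_eq_mul]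
            ring
    exact le_of_mul_le_mul_left h3 (abs_pos.2 hPI0)

/-! ### heights of rational vectors -/

theorem exists_primitive {ι : Type*} [Fintype ι] (x : ι → ℚ) (hx : x ≠ 0) :
    ∃ (l : ℚ) (X : ι → ℤ), l ≠ 0 ∧ Finset.univ.gcd X = 1 ∧ x = l • (fun i => (X i : ℚ)) := by
  obtain ⟨b, hb⟩ := IsLocalization.exist_integer_multiples_of_finite (nonZeroDivisors ℤ) x
  choose X₀ hX₀ using hb
  have hb0 : ((b : ℤ) : ℚ) ≠ 0 := by exact_mod_cast nonZeroDivisors.coe_ne_zero b
  have hX₀' : ∀ i, (X₀ i : ℚ) = (b : ℤ) * x i := fun i => by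
    have := hX₀ i
    simpa [Algebra.smul_def] using this
  obtain ⟨i₀, hi₀⟩ : ∃ i, x i ≠ 0 := by
    by_contra hcon
    push Not at hcon
    exact hx (funext hcon)
  obtain ⟨X, hX, hg⟩ := Finset.extract_gcd X₀ ⟨i₀, Finset.mem_univ i₀⟩
  have hg0 : Finset.univ.gcd X₀ ≠ 0 := by
    intro h0
    have h1 := Finset.gcd_eq_zero_iff.1 h0 i₀ (Finset.mem_univ _)
    have h2 := hX₀' i₀
    rw [h1, Int.cast_zero] at h2
    exact (mul_ne_zero hb0 hi₀) h2.symm
  have hg0' : ((Finset.univ.gcd X₀ : ℤ) : ℚ) ≠ 0 := by exact_mod_cast hg0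
  refine ⟨(Finset.univ.gcd X₀ : ℤ) / (b : ℤ), X, div_ne_zero hg0' hb0, hg, ?_⟩
  funext i
  have h1 := hX₀' i
  rw [hX i (Finset.mem_univ i)] at h1
  push_cast at h1
  rw [Pi.smul_apply, smul_eq_mul, div_mul_eq_mul_div, h1, mul_div_cancel_left₀ _ hb0]

theorem mulHeight_le {ι : Type*} [Fintype ι] (t : ι → ℤ) (ht : t ≠ 0) (B : ℕ)
    (hB : ∀ i, |t i| ≤ B) : Height.mulHeight (fun i => (t i : ℚ)) ≤ B := by
  obtain ⟨i₀, hi₀⟩ : ∃ i, t i ≠ 0 := by
    by_contra hcon
    push Not at hcon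
    exact ht (funext hcon)
  have : Nonempty ι := ⟨i₀⟩
  obtain ⟨t', ht', hg⟩ := Finset.extract_gcd t ⟨i₀, Finset.mem_univ i₀⟩
  have hg0 : Finset.univ.gcd t ≠ 0 := by
    intro h0
    exact hi₀ (Finset.gcd_eq_zero_iff.1 h0 i₀ (Finset.mem_univ _))
  have hg0' : ((Finset.univ.gcd t : ℤ) : ℚ) ≠ 0 := by exact_mod_cast hg0
  have h1 : (fun i => (t i : ℚ)) = ((Finset.univ.gcd t : ℤ) : ℚ) • (((↑) : ℤ → ℚ) ∘ t') := by
    funext i
    rw [ht' i (Finset.mem_univ i)]
    simp
  rw [h1, Height.mulHeight_smul_eq_mulHeight _ hg0', Rat.mulHeight_eq_max_abs_of_gcd_eq_one hg]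
  have h2 : (⨆ i, |t' i|) ≤ (B : ℤ) := by
    refine ciSup_le fun i => le_trans ?_ (hB i)
    rw [ht' i (Finset.mem_univ i), abs_mul]
    exact le_mul_of_one_le_left (abs_nonneg _) (Int.one_le_abs hg0)
  exact_mod_cast h2

/-! ### a nonzero maximal minor -/

theorem exists_mn_ne_zero (Y : Matrix (Fin r) (Fin s) ℚ) (hY : LinearIndependent ℚ Y.row) :
    ∃ S : Fin r ↪o Fin s, mn Y S ≠ 0 := by
  have h1 : Y.rank = r := by simpa using hY.rank_matrix
  rw [Y.rank_eq_finrank_span_cols] at h1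
  obtain ⟨f, hf1, hf3⟩ : ∃ f : Fin r → (Fin r → ℚ), (∀ i, f i ∈ Set.range Y.col) ∧
      LinearIndependent ℚ f := by
    have := Submodule.exists_fun_fin_finrank_span_eq ℚ (Set.range Y.col)
    rw [h1] at this
    obtain ⟨f, a, -, c⟩ := this
    exact ⟨f, a, c⟩
  choose g hg using hf1
  have h2 : (Y.submatrix id g).col = f := funext fun i => hg i
  have h3 : IsUnit (Y.submatrix id g) := Matrix.linearIndependent_cols_iff_isUnit.1 (h2 ▸ hf3)
  have h4 : mn Y g ≠ 0 := ((Matrix.isUnit_iff_isUnit_det _).1 h3).ne_zero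
  rcases mn_eq Y g with h | ⟨S, h | h⟩
  · exact absurd h h4
  · exact ⟨S, h ▸ h4⟩
  · refine ⟨S, fun h0 => h4 ?_⟩
    rw [h, h0, neg_zero]

theorem mn_mul {R : Type*} [CommRing R] (D : Matrix (Fin r) (Fin r) R) (Y : Matrix (Fin r) (Fin s) R)
    (f : Fin r → Fin s) : mn (D * Y) f = D.det * mn Y f := by
  unfold mn
  rw [← Matrix.det_mul]
  rfl

/-! ### Siegel's lemma for a matrix -/

theorem siegel (hr : r ≠ 0) (Y : Matrix (Fin r) (Fin s) ℚ) (hY : LinearIndependent ℚ Y.row) :
    ∃ c : Fin r → ℚ, c ᵥ* Y ≠ 0 ∧ r * Height.logHeight (c ᵥ* Y)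
      ≤ Height.logHeight (fun S : Fin r ↪o Fin s => mn Y S) + r * Real.log r := by
  classical
  obtain ⟨S₀, hS₀⟩ := exists_mn_ne_zero Y hY
  have : Nonempty (Fin r ↪o Fin s) := ⟨S₀⟩
  have hp0 : (fun S : Fin r ↪o Fin s => mn Y S) ≠ 0 := fun h => hS₀ (congrFun h S₀)
  obtain ⟨l, P, hl, hP, hlP⟩ := exists_primitive _ hp0
  -- rescale the first row
  let i₀ : Fin r := ⟨0, Nat.pos_of_ne_zero hr⟩
  let D : Matrix (Fin r) (Fin r) ℚ := Matrix.diagonal (Function.update 1 i₀ l⁻¹)
  have hD : D.det = l⁻¹ := by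
    rw [Matrix.det_diagonal, Finset.prod_update_of_mem (Finset.mem_univ _)]
    simp
  have hY' : ∀ S : Fin r ↪o Fin s, mn (D * Y) S = (P S : ℚ) := by
    intro S
    have := congrFun hlP S
    simp only [Pi.smul_apply, smul_eq_mul] at this
    rw [mn_mul, hD, this, inv_mul_cancel_left₀ hl]
  obtain ⟨I, hI⟩ := exists_eq_ciSup_of_finite (f := fun S => |P S|)
  have hsup0 : 0 ≤ ⨆ S, |P S| := by rw [← hI]; exact abs_nonneg _
  set H : ℕ := (⨆ S, |P S|).toNat with hH
  have hHc : (H : ℤ) = ⨆ S, |P S| := Int.toNat_of_nonneg hsup0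
  obtain ⟨t, c, B, ht0, htc, hB, htB⟩ := core hr (D * Y) P hP hY' H I (by rw [hHc]; exact hI)
    (fun S => by rw [hHc]; exact le_ciSup (f := fun S => |P S|) (Set.finite_range _).bddAbove S)
  refine ⟨c ᵥ* D, ?_, ?_⟩
  · rw [Matrix.vecMul_vecMul, ← htc]
    intro h0
    apply ht0
    funext j
    have := congrFun h0 j
    simpa using this
  · rw [Matrix.vecMul_vecMul, ← htc]
    have h1 : Height.logHeight (fun S : Fin r ↪o Fin s => mn Y S) = Real.log H := by
      rw [hlP, Height.logHeight_smul_eq_logHeight _ hl]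
      have := Rat.logHeight_eq_max_abs_of_gcd_eq_one hP
      rw [← hHc] at this
      rw [Int.cast_natCast] at this
      exact this
    have h2 : Height.mulHeight (fun j => (t j : ℚ)) ≤ ((r * B : ℕ) : ℝ) :=
      mulHeight_le t ht0 (r * B) (fun j => by push_cast; exact htB j)
    have hB0 : B ≠ 0 := by
      rintro rfl
      apply ht0
      funext j
      have := htB j
      simpa using this
    have hrR : (0 : ℝ) < r := by exact_mod_cast Nat.pos_of_ne_zero hr
    have hBR : (0 : ℝ) < B := by exact_mod_cast Nat.pos_of_ne_zero hB0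
    have h3 : Height.logHeight (fun j => (t j : ℚ)) ≤ Real.log r + Real.log B := by
      rw [Height.logHeight_eq_log_mulHeight, ← Real.log_mul hrR.ne' hBR.ne']
      refine Real.log_le_log (Height.mulHeight_pos _) ?_
      push_cast at h2
      exact h2
    have h4 : (r : ℝ) * Real.log B ≤ Real.log H := by
      rw [← Real.log_pow]
      refine Real.log_le_log (pow_pos hBR r) ?_
      exact_mod_cast hB
    rw [h1]
    calc (r : ℝ) * Height.logHeight (fun j => (t j : ℚ))
        ≤ r * (Real.log r + Real.log B) := mul_le_mul_of_nonneg_left h3 hrR.le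
      _ = r * Real.log B + r * Real.log r := by ring
      _ ≤ Real.log H + r * Real.log r := by linarith

end Fermat.Agent.S17.SiegelAux
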