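import Fermat.Agent.S17.Defs
import Fermat.Agent.S17.GL.SiegelAux

set_option autoImplicit false

open Matrix

namespace Fermat.Agent.S17

/-- **SI.** Siegel's lemma over `ℚ`. -/
theorem csiegel : CSiegel := by
  intro s
  refine ⟨s * Real.log s, fun U hU => ?_⟩
  have hr0 : Module.finrank ℚ U ≠ 0 := by
    intro h0
    exact hU (Submodule.finrank_eq_zero.1 h0)
  have hrs : Module.finrank ℚ U ≤ s := by
    have := Submodule.finrank_le U
    rwa [Module.finrank_fin_fun] at this
  have hY : LinearIndependent ℚ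
      (Matrix.of fun i => (Module.finBasis ℚ U i : Fin s → ℚ)).row :=
    (Module.finBasis ℚ U).linearIndependent.map' U.subtype (Submodule.ker_subtype U)
  obtain ⟨c, hc0, hc⟩ := SiegelAux.siegel hr0 _ hY
  refine ⟨_, ?_, hc0, ?_⟩
  · rw [Matrix.vecMul_eq_sum]
    exact Submodule.sum_mem _ fun i _ => Submodule.smul_mem _ _ (Module.finBasis ℚ U i).2
  · have h1 : subHt U = Height.logHeight (fun S : Fin (Module.finrank ℚ U) ↪o Fin s =>
        SiegelAux.mn (Matrix.of fun i => (Module.finBasis ℚ U i : Fin s → ℚ)) S) := rfl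
    rw [h1]
    have h2 : (1 : ℝ) ≤ Module.finrank ℚ U := by
      exact_mod_cast Nat.one_le_iff_ne_zero.2 hr0
    have h3 : ((Module.finrank ℚ U : ℕ) : ℝ) ≤ s := by exact_mod_cast hrs
    have h4 : (Module.finrank ℚ U : ℝ) * Real.log (Module.finrank ℚ U) ≤ s * Real.log s :=
      mul_le_mul h3 (Real.log_le_log (by linarith) h3) (Real.log_nonneg h2) (by positivity)
    linarith

end Fermat.Agent.S17
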