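import Fermat.Agent.S17.Defs
import Fermat.Agent.S27.A.Api

/-!
# S17 / ASM-4 : formal properties of `degN`, `clD`, `eta`
-/

set_option autoImplicit false

namespace Fermat.Agent.S17

open AlgebraicCurve Fermat.Agent.S24.FF Fermat.Agent.S27 Fermat.Agent.GAL.FF

theorem RatCurve.Bundle_degN_cast (X : RatCurve) {A : Divisor Qb X.F} (hA : A ∈ X.DD) :
    ((X.degN A : ℕ) : ℤ) = Divisor.degree A :=
  Int.toNat_of_nonneg (degree_nonneg hA.1)

theorem RatCurve.Bundle_nInf_add (X : RatCurve) (a b : ℕ) :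
    X.nInf (a + b) = X.nInf a + X.nInf b := by
  unfold RatCurve.nInf
  rw [Nat.cast_add, Finsupp.single_add]

theorem RatCurve.Bundle_degree_sub (X : RatCurve) {A : Divisor Qb X.F} (hA : A ∈ X.DD) :
    Divisor.degree (A - X.nInf (X.degN A)) = 0 := by
  unfold RatCurve.nInf
  rw [map_sub, degree_single_one, X.Bundle_degN_cast hA, sub_self]

/-- **ASM-4a.** -/
theorem RatCurve.degN_add (X : RatCurve) {A B : Divisor Qb X.F} (hA : A ∈ X.DD) (hB : B ∈ X.DD) :
    X.degN (A + B) = X.degN A + X.degN B := by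
  have h : ((X.degN (A + B) : ℕ) : ℤ) = ((X.degN A + X.degN B : ℕ) : ℤ) := by
    rw [X.Bundle_degN_cast (X.DD.add_mem hA hB), map_add, Nat.cast_add, X.Bundle_degN_cast hA,
      X.Bundle_degN_cast hB]
  exact_mod_cast h

/-- **ASM-4b.** -/
theorem RatCurve.clD_add (X : RatCurve) {A B : Divisor Qb X.F} (hA : A ∈ X.DD) (hB : B ∈ X.DD) :
    X.clD (A + B) = X.clD A + X.clD B := by
  unfold RatCurve.clD
  rw [← cls_add (X.Bundle_degree_sub hA) (X.Bundle_degree_sub hB), X.degN_add hA hB,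
    X.Bundle_nInf_add]
  congr 1
  abel

/-- **ASM-4c.** -/
theorem RatCurve.clD_mem (X : RatCurve) {A : Divisor Qb X.F} (hA : A ∈ X.DD) :
    X.clD A ∈ X.Gam := by
  intro σ
  have h0 := X.Bundle_degree_sub hA
  have hfix : X.act σ • (A - X.nInf (X.degN A)) = A - X.nInf (X.degN A) := by
    unfold RatCurve.nInf
    rw [smul_sub, hA.2.2 σ, SemilinearAut.smul_single, X.inf_fixed σ]
  unfold RatCurve.clD
  rw [cls_of_degree h0, SemilinearAut.pic0_smul_mk]
  congr 1
  exact Subtype.ext hfix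

/-- **ASM-4d.** -/
theorem RatCurve.eta_nonneg (X : RatCurve) (A : Divisor Qb X.F) : 0 ≤ X.eta A := by
  unfold RatCurve.eta polyHt
  exact div_nonneg (Height.logHeight_nonneg _) (Nat.cast_nonneg _)

end Fermat.Agent.S17
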