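import Fermat.Agent.S17.Defs
import Fermat.Agent.GAL.FF.Riemann

/-!
# S17 / ASM-2 : the cube inequality for `HH n` from (CUBE) for `hh n` and (GL)
-/

set_option autoImplicit false

namespace Fermat.Agent.S17

open AlgebraicCurve Fermat.Agent.S24.FF Fermat.Agent.S27 Fermat.Agent.GAL.FF

/-- the real inequality behind `cubeHH`. -/
theorem cubeHH_real (N d C C1 : ℝ) (hN : 0 ≤ N - 3 * d) (hd : 0 ≤ d)
    (h3 h12 h13 h23 hA hB hE e3 e12 e13 e23 eA eB eE : ℝ)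
    (hc : |h3 - h12 - h13 - h23 + hA + hB + hE| ≤ C)
    (g12 : |e12 - eA - eB| ≤ C1) (g13 : |e13 - eA - eE| ≤ C1) (g23 : |e23 - eB - eE| ≤ C1)
    (g3 : |e3 - e12 - eE| ≤ C1) :
    |(h3 - (N - 3 * d) * e3) - (h12 - (N - 2 * d) * e12) - (h13 - (N - 2 * d) * e13)
      - (h23 - (N - 2 * d) * e23) + (hA - (N - d) * eA) + (hB - (N - d) * eB)
      + (hE - (N - d) * eE)| ≤ C + 5 * N * C1 := by
  have hC1 : 0 ≤ C1 := (abs_nonneg _).trans g12
  have key : (h3 - (N - 3 * d) * e3) - (h12 - (N - 2 * d) * e12) - (h13 - (N - 2 * d) * e13)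
      - (h23 - (N - 2 * d) * e23) + (hA - (N - d) * eA) + (hB - (N - d) * eB)
      + (hE - (N - d) * eE) =
      (h3 - h12 - h13 - h23 + hA + hB + hE) - (N - 3 * d) * (e3 - e12 - eE)
        + d * (e12 - eA - eB) + (N - 2 * d) * (e13 - eA - eE) + (N - 2 * d) * (e23 - eB - eE) := by
    ring
  rw [key]
  have hN2 : 0 ≤ N - 2 * d := by linarith
  have b1 : |(N - 3 * d) * (e3 - e12 - eE)| ≤ (N - 3 * d) * C1 := by
    rw [abs_mul, abs_of_nonneg hN]
    exact mul_le_mul_of_nonneg_left g3 hN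
  have b2 : |d * (e12 - eA - eB)| ≤ d * C1 := by
    rw [abs_mul, abs_of_nonneg hd]
    exact mul_le_mul_of_nonneg_left g12 hd
  have b3 : |(N - 2 * d) * (e13 - eA - eE)| ≤ (N - 2 * d) * C1 := by
    rw [abs_mul, abs_of_nonneg hN2]
    exact mul_le_mul_of_nonneg_left g13 hN2
  have b4 : |(N - 2 * d) * (e23 - eB - eE)| ≤ (N - 2 * d) * C1 := by
    rw [abs_mul, abs_of_nonneg hN2]
    exact mul_le_mul_of_nonneg_left g23 hN2
  have hdC : 0 ≤ d * C1 := mul_nonneg hd hC1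
  have hNC : 0 ≤ N * C1 := mul_nonneg (by linarith) hC1
  rw [abs_le] at hc b1 b2 b3 b4 ⊢
  constructor <;> nlinarith [hc.1, hc.2, b1.1, b1.2, b2.1, b2.2, b3.1, b3.2, b4.1, b4.2]

theorem RatCurve.cubeHH_degree (X : RatCurve) {A : Divisor Qb X.F} (hA : A ∈ X.DD) :
    Divisor.degree A = (X.degN A : ℤ) := by
  rw [RatCurve.degN, Int.toNat_of_nonneg (degree_nonneg hA.1)]

theorem RatCurve.cubeHH_finrank (X : RatCurve) {c : ℤ}
    (hc : ∀ D : Divisor Qb X.F, c ≤ Divisor.degree D →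
      Subsingleton (H1 D) ∧ (GAL.FF.ell D : ℤ) = Divisor.degree D + 1 - genusFF Qb X.F)
    (n : ℕ) {A : Divisor Qb X.F} (hA : A ∈ X.DD) (h : c + X.degN A ≤ n) :
    (Module.finrank Qb (X.W n A) : ℝ) = ((n : ℝ) + 1 - genusFF Qb X.F) - X.degN A := by
  have hdeg : Divisor.degree (X.nInf n - A) = (n : ℤ) - X.degN A := by
    rw [map_sub, X.cubeHH_degree hA, RatCurve.nInf, degree_single_one]
  have h1 := (hc (X.nInf n - A) (by rw [hdeg]; omega)).2
  rw [hdeg] at h1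
  have h2 : ((GAL.FF.ell (X.nInf n - A) : ℤ) : ℝ) = (((n : ℤ) - X.degN A + 1 - genusFF Qb X.F : ℤ) : ℝ) := by
    rw [h1]
  push_cast at h2
  show ((GAL.FF.ell (X.nInf n - A) : ℕ) : ℝ) = _
  rw [h2]
  ring

/-- **ASM-2.** The cube inequality for `HH n` at every large level. -/
theorem RatCurve.cubeHH (X : RatCurve) (h1 : X.CGL) (h4 : X.CCube) (d : ℕ) :
    ∃ n0 : ℕ, ∀ n ≥ n0, ∃ C : ℝ, ∀ A ∈ X.DD, ∀ B ∈ X.DD, ∀ E ∈ X.DD,
      X.degN A = d → X.degN B = d → X.degN E = d → X.GenPos A B E →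
      |X.HH n (A + B + E) - X.HH n (A + B) - X.HH n (A + E) - X.HH n (B + E)
        + X.HH n A + X.HH n B + X.HH n E| ≤ C := by
  obtain ⟨c, hc⟩ := exists_degree_bound Qb X.F
  obtain ⟨n1, hn1⟩ := h4 d
  obtain ⟨C1, hC1⟩ := h1 (2 * d)
  refine ⟨max n1 (c.toNat + 3 * d + genusFF Qb X.F), fun n hn => ?_⟩
  obtain ⟨C, hC⟩ := hn1 n (le_trans (le_max_left _ _) hn)
  have hn2 : c.toNat + 3 * d + genusFF Qb X.F ≤ n := le_trans (le_max_right _ _) hn
  have hcn : c ≤ c.toNat := Int.self_le_toNat c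
  refine ⟨C + 5 * ((n : ℝ) + 1 - genusFF Qb X.F) * C1, ?_⟩
  intro A hA B hB E hE hdA hdB hdE hgp
  have hadd : ∀ {D D' : Divisor Qb X.F}, D ∈ X.DD → D' ∈ X.DD →
      X.degN (D + D') = X.degN D + X.degN D' := by
    intro D D' hD hD'
    have h := X.cubeHH_degree (X.DD.add_mem hD hD')
    rw [map_add, X.cubeHH_degree hD, X.cubeHH_degree hD'] at h
    exact_mod_cast h.symm
  have hAB := X.DD.add_mem hA hB
  have hAE := X.DD.add_mem hA hE
  have hBE := X.DD.add_mem hB hE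
  have hABE := X.DD.add_mem hAB hE
  have dAB : X.degN (A + B) = 2 * d := by rw [hadd hA hB, hdA, hdB]; ring
  have dAE : X.degN (A + E) = 2 * d := by rw [hadd hA hE, hdA, hdE]; ring
  have dBE : X.degN (B + E) = 2 * d := by rw [hadd hB hE, hdB, hdE]; ring
  have dABE : X.degN (A + B + E) = 3 * d := by rw [hadd hAB hE, dAB, hdE]; ring
  have fA := X.cubeHH_finrank hc n hA (by rw [hdA]; omega)
  have fB := X.cubeHH_finrank hc n hB (by rw [hdB]; omega)
  have fE := X.cubeHH_finrank hc n hE (by rw [hdE]; omega)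
  have fAB := X.cubeHH_finrank hc n hAB (by rw [dAB]; push_cast; omega)
  have fAE := X.cubeHH_finrank hc n hAE (by rw [dAE]; push_cast; omega)
  have fBE := X.cubeHH_finrank hc n hBE (by rw [dBE]; push_cast; omega)
  have fABE := X.cubeHH_finrank hc n hABE (by rw [dABE]; push_cast; omega)
  rw [hdA] at fA
  rw [hdB] at fB
  rw [hdE] at fE
  rw [dAB] at fAB
  rw [dAE] at fAE
  rw [dBE] at fBE
  rw [dABE] at fABE
  push_cast at fAB fAE fBE fABE
  simp only [RatCurve.HH, fA, fB, fE, fAB, fAE, fBE, fABE]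
  have hNd : (0 : ℝ) ≤ ((n : ℝ) + 1 - genusFF Qb X.F) - 3 * d := by
    have : ((c.toNat + 3 * d + genusFF Qb X.F : ℕ) : ℝ) ≤ n := by exact_mod_cast hn2
    push_cast at this
    have h0 : (0 : ℝ) ≤ (c.toNat : ℝ) := Nat.cast_nonneg _
    linarith
  exact cubeHH_real _ d C C1 hNd (Nat.cast_nonneg d) _ _ _ _ _ _ _ _ _ _ _ _ _ _
    (hC A hA B hB E hE hdA hdB hdE hgp)
    (hC1 A hA B hB (by omega) (by omega)) (hC1 A hA E hE (by omega) (by omega))
    (hC1 B hB E hE (by omega) (by omega)) (hC1 (A + B) hAB E hE (by omega) (by omega))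

end Fermat.Agent.S17
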