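import Fermat.Agent.S17.Defs
import Fermat.Agent.S27.A.Api
import Fermat.Agent.GAL.FF.Riemann

set_option autoImplicit false

namespace Fermat.Agent.S17

open AlgebraicCurve Fermat.Agent.S24.FF Fermat.Agent.S27 Fermat.Agent.GAL.FF

/-! ### Part A: the rational basis of `V n` -/

/-- semilinearity of the action. -/
theorem RatCurve.lw_act_smul (X : RatCurve) (σ : GQ) (c : Qb) (f : X.F) :
    X.act σ • (c • f) = σ c • (X.act σ • f) := by
  rw [Algebra.smul_def, Algebra.smul_def, smul_mul', SemilinearAut.smul_algebraMap,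
    X.baseAut_act σ]
  rfl

/-- `L(D)` is `G`-stable when `D` is. -/
theorem RatCurve.lw_L_stable (X : RatCurve) {D : Divisor Qb X.F} (hD : ∀ σ : GQ, X.act σ • D = D)
    (σ : GQ) {f : X.F} (hf : f ∈ riemannRochSpace D) : X.act σ • f ∈ riemannRochSpace D := by
  rw [mem_riemannRochSpace_iff] at hf ⊢
  intro w
  rcases hf ((X.act σ)⁻¹ • w) with h | h
  · left; rw [h, smul_zero]
  · right
    have h1 := SemilinearAut.ord_smul (X.act σ) ((X.act σ)⁻¹ • w) f
    rw [smul_inv_smul] at h1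
    have h2 := SemilinearAut.divisor_smul_apply (X.act σ) D w
    rw [hD σ] at h2
    rw [h1, h2]
    exact h

theorem RatCurve.lw_nInf_fixed (X : RatCurve) (n : ℕ) (σ : GQ) : X.act σ • X.nInf n = X.nInf n := by
  rw [RatCurve.nInf, SemilinearAut.smul_single, X.inf_fixed]

theorem RatCurve.lw_V_stable (X : RatCurve) (n : ℕ) (σ : GQ) {f : X.F} (hf : f ∈ X.V n) :
    X.act σ • f ∈ X.V n :=
  X.lw_L_stable (X.lw_nInf_fixed n) σ hf

theorem RatCurve.lw_W_stable (X : RatCurve) (n : ℕ) {A : Divisor Qb X.F} (hA : A ∈ X.DD) (σ : GQ)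
    {f : X.F} (hf : f ∈ X.W n A) : X.act σ • f ∈ X.W n A :=
  X.lw_L_stable (fun τ => by rw [smul_sub, X.lw_nInf_fixed n τ, hA.2.2 τ]) σ hf

theorem RatCurve.lw_W_le_V (X : RatCurve) (n : ℕ) {A : Divisor Qb X.F} (hA : A ∈ X.DD) :
    X.W n A ≤ X.V n :=
  L_mono (sub_le_self _ hA.1)

/-- there is a rational basis of `V n`. -/
theorem RatCurve.lw_exists_basis (X : RatCurve) (n : ℕ) :
    ∃ b : Module.Basis (Fin (X.dimV n)) Qb (X.V n), ∀ i, X.IsRat (b i : X.F) := by
  classical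
  have hfin : Module.Finite Qb (X.V n) := finite_L _
  have hd := X.descent (X.V n) hfin (fun σ f hf => X.lw_V_stable n σ hf)
  set S : Set (X.V n) := {f | X.IsRat (f : X.F)} with hS
  have hspan : ⊤ ≤ Submodule.span Qb S := by
    rintro ⟨f, hf⟩ -
    have h1 := hd hf
    have h2 : Submodule.span Qb {f | f ∈ X.V n ∧ ∀ σ : GQ, X.act σ • f = f} ≤
        (Submodule.span Qb S).map (X.V n).subtype := by
      rw [Submodule.span_le]
      rintro g ⟨hg, hg'⟩
      exact ⟨⟨g, hg⟩, Submodule.subset_span hg', rfl⟩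
    obtain ⟨g, hg, hgf⟩ := h2 h1
    have : g = ⟨f, hf⟩ := Subtype.ext hgf
    rwa [this] at hg
  let b0 := Module.Basis.ofSpan hspan
  have hcard : Fintype.card _ = X.dimV n := (Module.finrank_eq_card_basis b0).symm
  refine ⟨b0.reindex (Fintype.equivFinOfCardEq hcard), fun i => ?_⟩
  rw [Module.Basis.reindex_apply]
  have h3 := Module.Basis.ofSpan_subset hspan
  have h4 : b0 ((Fintype.equivFinOfCardEq hcard).symm i) ∈ S := by
    apply h3
    exact ⟨_, rfl⟩
  exact h4

theorem RatCurve.lw_bas_spec (X : RatCurve) (n : ℕ) :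
    ∃ b : Module.Basis (Fin (X.dimV n)) Qb (X.V n), (∀ i, X.IsRat (b i : X.F)) ∧
      ∀ i, X.bas n i = (b i : X.F) := by
  classical
  have h := X.lw_exists_basis n
  refine ⟨h.choose, h.choose_spec, fun i => ?_⟩
  unfold RatCurve.bas
  rw [dif_pos h]

theorem RatCurve.lw_bas_isRat (X : RatCurve) (n : ℕ) (i : Fin (X.dimV n)) :
    X.IsRat (X.bas n i) := by
  obtain ⟨b, hb, hb'⟩ := X.lw_bas_spec n
  rw [hb' i]; exact hb i

theorem RatCurve.lw_bas_mem (X : RatCurve) (n : ℕ) (i : Fin (X.dimV n)) :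
    X.bas n i ∈ X.V n := by
  obtain ⟨b, hb, hb'⟩ := X.lw_bas_spec n
  rw [hb' i]; exact (b i).2

theorem RatCurve.lw_bas_linInd (X : RatCurve) (n : ℕ) : LinearIndependent Qb (X.bas n) := by
  obtain ⟨b, hb, hb'⟩ := X.lw_bas_spec n
  have h1 : X.bas n = (X.V n).subtype ∘ b := funext hb'
  rw [h1]
  exact b.linearIndependent.map' _ (Submodule.ker_subtype _)

theorem RatCurve.lw_exists_coordQb (X : RatCurve) (n : ℕ) {f : X.F} (hf : f ∈ X.V n) :
    ∃ c : Fin (X.dimV n) → Qb, f = ∑ i, c i • X.bas n i := by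
  obtain ⟨b, hb, hb'⟩ := X.lw_bas_spec n
  refine ⟨fun i => b.repr ⟨f, hf⟩ i, ?_⟩
  have h1 := b.sum_repr ⟨f, hf⟩
  have h2 := congrArg (X.V n).subtype h1
  rw [map_sum] at h2
  simp only [map_smul, Submodule.subtype_apply] at h2
  refine h2.symm.trans ?_
  exact Finset.sum_congr rfl fun i _ => by rw [hb' i]

theorem RatCurve.lw_ofCoord_mem_V (X : RatCurve) (n : ℕ) (t : Fin (X.dimV n) → ℚ) :
    X.ofCoord n t ∈ X.V n :=
  Submodule.sum_mem _ fun i _ => Submodule.smul_mem _ _ (X.lw_bas_mem n i)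

theorem RatCurve.lw_ofCoord_isRat (X : RatCurve) (n : ℕ) (t : Fin (X.dimV n) → ℚ) :
    X.IsRat (X.ofCoord n t) := by
  intro σ
  unfold RatCurve.ofCoord
  rw [Finset.smul_sum]
  refine Finset.sum_congr rfl fun i _ => ?_
  rw [X.lw_act_smul, X.lw_bas_isRat n i σ, AlgEquiv.commutes]

theorem RatCurve.lw_ofCoord_smul (X : RatCurve) (n : ℕ) (c : ℚ) (t : Fin (X.dimV n) → ℚ) :
    X.ofCoord n (c • t) = algebraMap ℚ Qb c • X.ofCoord n t := by
  simp [RatCurve.ofCoord, Finset.smul_sum, mul_smul]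

theorem RatCurve.lw_ofCoord_sum (X : RatCurve) (n : ℕ) {ι : Type*} (s : Finset ι) (c : ι → ℚ)
    (e : ι → Fin (X.dimV n) → ℚ) :
    X.ofCoord n (∑ j ∈ s, c j • e j) = ∑ j ∈ s, algebraMap ℚ Qb (c j) • X.ofCoord n (e j) := by
  simp only [RatCurve.ofCoord, Finset.sum_apply, Pi.smul_apply, smul_eq_mul, map_sum, map_mul,
    Finset.sum_smul, Finset.smul_sum, mul_smul]
  exact Finset.sum_comm

/-- a rational element of `V n` has rational coordinates. -/
theorem RatCurve.lw_exists_coord (X : RatCurve) (n : ℕ) {f : X.F} (hf : f ∈ X.V n)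
    (hr : X.IsRat f) : ∃ t : Fin (X.dimV n) → ℚ, X.ofCoord n t = f := by
  obtain ⟨c, hc⟩ := X.lw_exists_coordQb n hf
  have h1 : ∀ σ : GQ, ∀ i, σ (c i) = c i := by
    intro σ
    have h2 : X.act σ • f = ∑ i, σ (c i) • X.bas n i := by
      rw [hc, Finset.smul_sum]
      exact Finset.sum_congr rfl fun i _ => by rw [X.lw_act_smul, X.lw_bas_isRat n i σ]
    rw [hr σ, hc] at h2
    have h3 : ∑ i, (c i - σ (c i)) • X.bas n i = 0 := by
      simp only [sub_smul, Finset.sum_sub_distrib]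
      rw [sub_eq_zero]; exact h2
    have h4 := Fintype.linearIndependent_iff.mp (X.lw_bas_linInd n) _ h3
    intro i
    exact (sub_eq_zero.mp (h4 i)).symm
  have hgal : IsGalois ℚ Qb :=
    @IsAlgClosure.isGalois ℚ (AlgebraicClosure ℚ) _ _ (AlgebraicClosure.instAlgebra ℚ) _ _
  have h5 : ∀ i, ∃ q : ℚ, algebraMap ℚ Qb q = c i := by
    intro i
    exact (InfiniteGalois.mem_range_algebraMap_iff_fixed (k := ℚ) (K := Qb) (c i)).mpr
      (fun σ => h1 σ i)
  choose t ht using h5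
  refine ⟨t, ?_⟩
  rw [hc]
  exact Finset.sum_congr rfl fun i _ => by rw [ht i]

/-! ### Part B: the rank of `ratSub` -/

theorem RatCurve.lw_finrank_le (X : RatCurve) (n : ℕ) {U : Submodule Qb X.F} (hU : U ≤ X.V n)
    (hst : ∀ σ : GQ, ∀ f ∈ U, X.act σ • f ∈ U) :
    Module.finrank Qb U ≤ Module.finrank ℚ (X.ratSub n U) := by
  classical
  have hfinV : Module.Finite Qb (X.V n) := finite_L _
  have hfin : Module.Finite Qb U := Submodule.finiteDimensional_of_le hU
  have hd := X.descent U hfin hst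
  set e := Module.finBasis ℚ (X.ratSub n U) with he
  set v : Fin (Module.finrank ℚ (X.ratSub n U)) → X.F :=
    fun j => X.ofCoord n (e j : Fin (X.dimV n) → ℚ) with hv
  have h1 : U ≤ Submodule.span Qb (Set.range v) := by
    refine hd.trans ?_
    rw [Submodule.span_le]
    rintro f ⟨hfU, hfr⟩
    obtain ⟨t, ht⟩ := X.lw_exists_coord n (hU hfU) hfr
    have htU : t ∈ X.ratSub n U := by
      show X.ofCoord n t ∈ U
      rw [ht]; exact hfU
    have h2 := e.sum_repr ⟨t, htU⟩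
    have h3 := congrArg (X.ratSub n U).subtype h2
    rw [map_sum] at h3
    simp only [map_smul, Submodule.subtype_apply] at h3
    have h4 := X.lw_ofCoord_sum n Finset.univ (fun j => e.repr ⟨t, htU⟩ j)
      (fun j => (e j : Fin (X.dimV n) → ℚ))
    rw [h3, ht] at h4
    rw [SetLike.mem_coe, h4]
    exact Submodule.sum_mem _ fun j _ => Submodule.smul_mem _ _ (Submodule.subset_span ⟨j, rfl⟩)
  have hfin2 : Module.Finite Qb (Submodule.span Qb (Set.range v)) :=
    FiniteDimensional.span_of_finite Qb (Set.finite_range v)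
  calc Module.finrank Qb U ≤ Module.finrank Qb (Submodule.span Qb (Set.range v)) :=
        Submodule.finrank_mono h1
    _ ≤ Fintype.card (Fin (Module.finrank ℚ (X.ratSub n U))) := finrank_range_le_card v
    _ = Module.finrank ℚ (X.ratSub n U) := Fintype.card_fin _

/-! ### Part C: the height of a line -/

theorem RatCurve.lw_ratSub_span (X : RatCurve) (n : ℕ) {t : Fin (X.dimV n) → ℚ} (ht : t ≠ 0) :
    X.ratSub n (Submodule.span Qb {X.ofCoord n t}) = Submodule.span ℚ {t} := by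
  apply le_antisymm
  · intro t' ht'
    have h1 : X.ofCoord n t' ∈ Submodule.span Qb {X.ofCoord n t} := ht'
    obtain ⟨c, hc⟩ := Submodule.mem_span_singleton.mp h1
    have h2 : ∑ i, (c * algebraMap ℚ Qb (t i) - algebraMap ℚ Qb (t' i)) • X.bas n i = 0 := by
      simp only [sub_smul, Finset.sum_sub_distrib, mul_smul]
      rw [sub_eq_zero, ← Finset.smul_sum]
      exact hc
    have h3 := Fintype.linearIndependent_iff.mp (X.lw_bas_linInd n) _ h2
    obtain ⟨i0, hi0⟩ := Function.ne_iff.mp ht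
    have hi0' : algebraMap ℚ Qb (t i0) ≠ 0 := by
      rw [Ne, map_eq_zero_iff _ (algebraMap ℚ Qb).injective]; exact hi0
    have hc' : c = algebraMap ℚ Qb (t' i0 / t i0) := by
      rw [map_div₀, eq_div_iff hi0']
      exact sub_eq_zero.mp (h3 i0)
    rw [Submodule.mem_span_singleton]
    refine ⟨t' i0 / t i0, funext fun i => ?_⟩
    apply (algebraMap ℚ Qb).injective
    rw [Pi.smul_apply, smul_eq_mul, map_mul, ← hc']
    exact sub_eq_zero.mp (h3 i)
  · rw [Submodule.span_le]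
    rintro _ rfl
    exact Submodule.subset_span rfl

theorem lw_logHeight_plucker_one {r s : ℕ} (hr : r = 1) (Y : Matrix (Fin r) (Fin s) ℚ) :
    Height.logHeight (plucker Y) = Height.logHeight (Y ⟨0, by omega⟩) := by
  subst hr
  let e : (Fin 1 ↪o Fin s) ≃ Fin s :=
    { toFun := fun S => S 0
      invFun := fun j => OrderEmbedding.ofStrictMono (fun _ => j)
        (fun a b h => absurd h (by rw [Subsingleton.elim a b]; exact lt_irrefl _))
      left_inv := fun S => by
        ext a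
        rw [Subsingleton.elim a 0]
        rfl
      right_inv := fun j => rfl }
  have h1 : plucker Y = (Y ⟨0, by omega⟩) ∘ e := by
    funext S
    simp only [plucker, Matrix.det_unique, Matrix.submatrix_apply, id_eq, Function.comp_apply]
    rfl
  rw [h1, Height.logHeight_comp_equiv]

theorem lw_subHt_span_singleton {s : ℕ} {t : Fin s → ℚ} (ht : t ≠ 0) :
    subHt (Submodule.span ℚ {t}) = Height.logHeight t := by
  have hr : Module.finrank ℚ (Submodule.span ℚ {t}) = 1 := finrank_span_singleton ht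
  unfold subHt
  rw [lw_logHeight_plucker_one hr]
  set b := Module.finBasis ℚ (Submodule.span ℚ {t}) with hb
  have h1 : ((b ⟨0, by omega⟩ : Submodule.span ℚ {t}) : Fin s → ℚ) ∈ Submodule.span ℚ {t} :=
    (b ⟨0, by omega⟩).2
  obtain ⟨c, hc⟩ := Submodule.mem_span_singleton.mp h1
  have hc0 : c ≠ 0 := by
    rintro rfl
    rw [zero_smul] at hc
    exact b.ne_zero ⟨0, by omega⟩ (Subtype.ext hc.symm)
  show Height.logHeight ((b ⟨0, by omega⟩ : Submodule.span ℚ {t}) : Fin s → ℚ) = _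
  rw [← hc, Height.logHeight_smul_eq_logHeight _ hc0]

theorem RatCurve.lw_lineHt (X : RatCurve) (n : ℕ) {t : Fin (X.dimV n) → ℚ} (ht : t ≠ 0) :
    X.lineHt n (X.ofCoord n t) = Height.logHeight t := by
  unfold RatCurve.lineHt RatCurve.spHt
  rw [X.lw_ratSub_span n ht, lw_subHt_span_singleton ht]

theorem RatCurve.lw_ofCoord_ne_zero (X : RatCurve) (n : ℕ) {t : Fin (X.dimV n) → ℚ} (ht : t ≠ 0) :
    X.ofCoord n t ≠ 0 := by
  intro h
  have h3 := Fintype.linearIndependent_iff.mp (X.lw_bas_linInd n) _ h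
  exact ht (funext fun i => (algebraMap ℚ Qb).injective (by rw [h3 i, Pi.zero_apply, map_zero]))

/-! ### Part D: the divisor of zeros -/

theorem RatCurve.lw_Zd_add (X : RatCurve) (f : X.F) :
    X.Zd f + Finsupp.single X.inf (X.inf.ord f) = divOf Qb f := by
  have := Finsupp.erase_add_single X.inf (divOf Qb f)
  rwa [divOf_apply] at this

theorem RatCurve.lw_Zd_fixed (X : RatCurve) {f : X.F} (hr : X.IsRat f) (σ : GQ) :
    X.act σ • X.Zd f = X.Zd f := by
  classical
  ext w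
  rw [SemilinearAut.divisor_smul_apply]
  have h1 := SemilinearAut.ord_smul (X.act σ) ((X.act σ)⁻¹ • w) f
  rw [smul_inv_smul, hr σ] at h1
  unfold RatCurve.Zd
  by_cases hw : w = X.inf
  · have h2 : (X.act σ)⁻¹ • w = X.inf := by
      rw [hw, inv_smul_eq_iff, X.inf_fixed]
    rw [h2, hw]
  · have h2 : (X.act σ)⁻¹ • w ≠ X.inf := by
      intro h
      rw [inv_smul_eq_iff, X.inf_fixed] at h
      exact hw h
    rw [Finsupp.erase_ne h2, Finsupp.erase_ne hw, divOf_apply, divOf_apply, h1]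

theorem RatCurve.lw_degree_nInf (X : RatCurve) (n : ℕ) : Divisor.degree (X.nInf n) = n :=
  degree_single_one _ _

theorem RatCurve.lw_degree_Zd (X : RatCurve) (f : X.F) :
    Divisor.degree (X.Zd f) = - X.inf.ord f := by
  have h := congrArg Divisor.degree (X.lw_Zd_add f)
  rw [map_add, degree_divOf, degree_single_one] at h
  omega

theorem RatCurve.lw_E_mem (X : RatCurve) (n : ℕ) {C0 : Divisor Qb X.F} (hC : C0 ∈ X.DD) {f : X.F}
    (hf : f ∈ X.W n C0) (hf0 : f ≠ 0) (hr : X.IsRat f) : X.Zd f - C0 ∈ X.DD := by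
  classical
  have h1 := (mem_L_iff_divOf hf0).mp hf
  refine ⟨?_, ?_, fun σ => ?_⟩
  · intro P
    rw [Finsupp.zero_apply, Finsupp.sub_apply]
    by_cases hP : P = X.inf
    · rw [hP, hC.2.1]
      unfold RatCurve.Zd
      rw [Finsupp.erase_same, sub_zero]
    · have h2 := h1 P
      rw [Finsupp.zero_apply, Finsupp.add_apply, Finsupp.sub_apply, divOf_apply, RatCurve.nInf,
        Finsupp.single_eq_of_ne hP] at h2
      unfold RatCurve.Zd
      rw [Finsupp.erase_ne hP, divOf_apply]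
      omega
  · rw [Finsupp.sub_apply, hC.2.1]
    unfold RatCurve.Zd
    rw [Finsupp.erase_same, sub_zero]
  · rw [smul_sub, X.lw_Zd_fixed hr σ, hC.2.2 σ]

theorem RatCurve.lw_degN_cast (X : RatCurve) {A : Divisor Qb X.F} (hA : A ∈ X.DD) :
    (X.degN A : ℤ) = Divisor.degree A :=
  Int.toNat_of_nonneg (degree_nonneg hA.1)

theorem RatCurve.lw_degN_E_le (X : RatCurve) (n : ℕ) {C0 : Divisor Qb X.F} (hC : C0 ∈ X.DD)
    {f : X.F} (hf : f ∈ X.W n C0) (hf0 : f ≠ 0) : X.degN (X.Zd f - C0) ≤ n := by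
  have h1 := (mem_L_iff_divOf hf0).mp hf X.inf
  rw [Finsupp.zero_apply, Finsupp.add_apply, Finsupp.sub_apply, divOf_apply, RatCurve.nInf,
    Finsupp.single_eq_same, hC.2.1] at h1
  have h2 : 0 ≤ Divisor.degree C0 := degree_nonneg hC.1
  unfold RatCurve.degN
  rw [map_sub, X.lw_degree_Zd]
  omega

theorem RatCurve.lw_clD_E (X : RatCurve) (n : ℕ) {C0 : Divisor Qb X.F} (hC : C0 ∈ X.DD) {f : X.F}
    (hf : f ∈ X.W n C0) (hf0 : f ≠ 0) (hr : X.IsRat f) :
    X.clD (X.Zd f - C0) = - X.clD C0 := by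
  have hE := X.lw_E_mem n hC hf hf0 hr
  have hdE := X.lw_degN_cast hE
  have hdC := X.lw_degN_cast hC
  have h1 : Divisor.degree (X.Zd f - C0 - X.nInf (X.degN (X.Zd f - C0))) = 0 := by
    rw [map_sub, X.lw_degree_nInf, hdE, sub_self]
  have h2 : Divisor.degree (C0 - X.nInf (X.degN C0)) = 0 := by
    rw [map_sub, X.lw_degree_nInf, hdC, sub_self]
  unfold RatCurve.clD
  rw [eq_neg_iff_add_eq_zero, ← cls_add h1 h2]
  have h3 : X.Zd f - C0 - X.nInf (X.degN (X.Zd f - C0)) + (C0 - X.nInf (X.degN C0)) =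
      divOf Qb f := by
    rw [← X.lw_Zd_add f]
    have h4 : X.nInf (X.degN (X.Zd f - C0)) + X.nInf (X.degN C0) =
        - Finsupp.single X.inf (X.inf.ord f) := by
      unfold RatCurve.nInf
      rw [← Finsupp.single_add, ← Finsupp.single_neg, hdE, hdC, map_sub, X.lw_degree_Zd]
      congr 1
      ring
    have h5 : Finsupp.single X.inf (X.inf.ord f) =
        - (X.nInf (X.degN (X.Zd f - C0)) + X.nInf (X.degN C0)) := by
      rw [h4, neg_neg]
    rw [h5]
    abel
  rw [h3, cls_eq_zero_iff (degree_divOf f)]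
  exact ⟨f, hf0, fun v => rfl⟩

/-! ### Part E: assembly -/

theorem RatCurve.lw_eta_nonneg (X : RatCurve) (A : Divisor Qb X.F) : 0 ≤ X.eta A :=
  div_nonneg (Height.logHeight_nonneg _) (Nat.cast_nonneg _)

/-- **ASM-3.** Lower bound via Siegel's lemma: for `C0` of degree `d` and every large level `n`
there is `E ∈ DD` of degree `≤ n` in the opposite class with `eta E - C ≤ HH n C0`. -/
theorem RatCurve.lowerHH (X : RatCurve) (h1 : X.CGL) (h2 : X.CCH) (h7 : CSiegel) (d : ℕ) :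
    ∃ n0 : ℕ, ∀ n ≥ n0, ∃ C : ℝ, ∀ C0 ∈ X.DD, X.degN C0 = d →
      ∃ E ∈ X.DD, X.degN E ≤ n ∧ X.clD E = - X.clD C0 ∧ X.eta E - C ≤ X.HH n C0 := by
  refine ⟨d + genusFF Qb X.F, fun n hn => ?_⟩
  obtain ⟨C1, hC1⟩ := h1 (max d n)
  obtain ⟨C2, hC2⟩ := h2 n
  obtain ⟨C7, hC7⟩ := h7 (X.dimV n)
  refine ⟨X.dimV n * (|C1| + |C2|) + C7, fun C0 hC hd => ?_⟩
  -- the rank
  have hdC := X.lw_degN_cast hC
  have hr1 : 1 ≤ Module.finrank Qb (X.W n C0) := by
    have h := riemann_ineq (X.nInf n - C0)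
    rw [map_sub, X.lw_degree_nInf, ← hdC, hd] at h
    have h' : (1 : ℤ) ≤ Module.finrank Qb (X.W n C0) := by
      refine le_trans ?_ h
      have : (d : ℤ) + genusFF Qb X.F ≤ n := by exact_mod_cast hn
      omega
    exact_mod_cast h'
  have hr2 := X.lw_finrank_le n (X.lw_W_le_V n hC) (fun σ f hf => X.lw_W_stable n hC σ hf)
  set U := X.ratSub n (X.W n C0) with hU
  have hr3 : Module.finrank ℚ U ≤ X.dimV n := by
    have := Submodule.finrank_le U
    rwa [Module.finrank_fin_fun] at this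
  have hUne : U ≠ ⊥ := by
    intro h
    rw [h, finrank_bot] at hr2
    omega
  obtain ⟨t, htU, ht0, hts⟩ := hC7 U hUne
  set f := X.ofCoord n t with hf
  have hfW : f ∈ X.W n C0 := htU
  have hf0 : f ≠ 0 := X.lw_ofCoord_ne_zero n ht0
  have hfr : X.IsRat f := X.lw_ofCoord_isRat n t
  have hfV : f ∈ X.V n := X.lw_ofCoord_mem_V n t
  have hE := X.lw_E_mem n hC hfW hf0 hfr
  have hEn := X.lw_degN_E_le n hC hfW hf0
  refine ⟨X.Zd f - C0, hE, hEn, X.lw_clD_E n hC hfW hf0 hfr, ?_⟩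
  have hline : X.lineHt n f = Height.logHeight t := X.lw_lineHt n ht0
  have e1 := hC2 f hfV hfr hf0
  have e2 := hC1 C0 hC (X.Zd f - C0) hE (hd.le.trans (le_max_left _ _))
    (hEn.trans (le_max_right _ _))
  rw [add_sub_cancel] at e2
  rw [hline] at e1
  have e1' := abs_le.mp e1
  have e2' := abs_le.mp e2
  have hη0 := X.lw_eta_nonneg C0
  have hηE := X.lw_eta_nonneg (X.Zd f - C0)
  set a := X.eta C0
  set b := X.eta (X.Zd f - C0)
  set z := X.eta (X.Zd f)
  set h := Height.logHeight t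
  have hlow : a + b - (|C1| + |C2|) ≤ h := by
    have := le_abs_self C1
    have := le_abs_self C2
    linarith [e1'.1, e2'.2]
  unfold RatCurve.HH
  have hhh : X.hh n C0 = subHt U := rfl
  rw [hhh]
  set rQ : ℝ := (Module.finrank ℚ U : ℝ) with hrQ
  set rK : ℝ := (Module.finrank Qb (X.W n C0) : ℝ) with hrK
  have k1 : (1 : ℝ) ≤ rK := by rw [hrK]; exact_mod_cast hr1
  have k2 : rK ≤ rQ := by rw [hrK, hrQ]; exact_mod_cast hr2
  have k3 : rQ ≤ (X.dimV n : ℝ) := by rw [hrQ]; exact_mod_cast hr3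
  have hK : 0 ≤ |C1| + |C2| := by positivity
  have m1 : rQ * (a + b - (|C1| + |C2|)) ≤ rQ * h :=
    mul_le_mul_of_nonneg_left hlow (by linarith)
  have m2 : rK * a ≤ rQ * a := mul_le_mul_of_nonneg_right k2 hη0
  have m3 : b ≤ rQ * b := by
    have : 1 * b ≤ rQ * b := mul_le_mul_of_nonneg_right (by linarith) hηE
    linarith
  have m4 : rQ * (|C1| + |C2|) ≤ X.dimV n * (|C1| + |C2|) := mul_le_mul_of_nonneg_right k3 hK
  nlinarith [m1, m2, m3, m4, hts]

end Fermat.Agent.S17
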