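import Fermat.Agent.S17.GL.ClassFn
import Fermat.Agent.S17.GL.CubeHH
import Fermat.Agent.S17.GL.Lower
import Fermat.Agent.S17.GL.Bundle

set_option autoImplicit false

namespace Fermat.Agent.S17

open AlgebraicCurve Fermat.Agent.S24.FF Fermat.Agent.S27 Fermat.Agent.GAL.FF

/-- **ASM-5.** The contracts give a height system on the Mordell–Weil group. -/
theorem RatCurve.nonempty_htSystem2 (X : RatCurve) (h1 : X.CGL) (h2 : X.CCH) (h3 : X.CM1)
    (h4 : X.CCube) (h5 : X.CMov) (h6 : X.CNC) (h7 : CSiegel) :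
    Nonempty (HT.HtSystem2 X.Gam) := by
  obtain ⟨d0, hmov⟩ := h5
  obtain ⟨n1, hcube⟩ := X.cubeHH h1 h4 d0
  obtain ⟨n2, hlow⟩ := X.lowerHH h1 h2 h7 d0
  set n : ℕ := max n1 n2 with hn
  obtain ⟨Cc, hCc⟩ := hcube n (le_max_left _ _)
  obtain ⟨Cl, hCl⟩ := hlow n (le_max_right _ _)
  refine ⟨{
    D := X.DD
    instD := inferInstance
    deg :=
      { toFun := fun A => X.degN A.1
        map_zero' := by simp [RatCurve.degN]
        map_add' := fun A B => X.degN_add A.2 B.2 }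
    cl := AddMonoidHom.mk' (fun A => (⟨X.clD A.1, X.clD_mem A.2⟩ : X.Gam))
      (fun A B => Subtype.ext (X.clD_add A.2 B.2))
    eta := fun A => X.eta A.1
    HH := fun A => X.HH n A.1
    GenPos := fun A B E => X.GenPos A.1 B.1 E.1
    d0 := d0
    eta_nonneg := fun A => X.eta_nonneg A.1
    classFn := ?_
    cube := ?_
    moving := ?_
    lower := ?_
    northcott := ?_ }⟩
  · intro d
    obtain ⟨C, hC⟩ := X.classFn h1 h2 h3 n d
    exact ⟨C, fun A A' hA hA' hcl => hC A.1 A.2 A'.1 A'.2 hA hA' (congrArg Subtype.val hcl)⟩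
  · exact ⟨Cc, fun A B E hA hB hE hg => hCc A.1 A.2 B.1 B.2 E.1 E.2 hA hB hE hg⟩
  · intro x y z
    obtain ⟨A, hA, B, hB, E, hE, dA, dB, dE, cA, cB, cE, hg⟩ :=
      hmov d0 le_rfl x.1 x.2 y.1 y.2 z.1 z.2
    exact ⟨⟨A, hA⟩, ⟨B, hB⟩, ⟨E, hE⟩, dA, dB, dE, Subtype.ext cA, Subtype.ext cB,
      Subtype.ext cE, hg⟩
  · refine ⟨n, Cl, fun x => ?_⟩
    obtain ⟨C0, hC0, _, _, _, _, dC0, _, _, cC0, _, _, _⟩ :=
      hmov d0 le_rfl (-x).1 (-x).2 (-x).1 (-x).2 (-x).1 (-x).2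
    obtain ⟨E, hE, dE, cE, hle⟩ := hCl C0 hC0 dC0
    refine ⟨⟨E, hE⟩, ⟨C0, hC0⟩, dE, dC0, Subtype.ext ?_, Subtype.ext cC0, hle⟩
    change X.clD E = x.1
    rw [cE, cC0]
    simp
  · intro d T
    exact (h6 d T).preimage_embedding ⟨Subtype.val, Subtype.val_injective⟩ |>.subset
      (fun E hE => ⟨E.2, hE.1, hE.2⟩)

end Fermat.Agent.S17
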