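import Fermat.Agent.S17.GL.MovBertini
import Fermat.Agent.S17.WM.Stable
import Fermat.Agent.S27.A.Api

/-!
# S17 / CMov : the moving lemma

Every `x ∈ Γ` is the class of a `G`-stable divisor `D₀` of degree `0` (`WM.exists_stable_divisor`); a general rational
member `l` of `L(D₀ + d∞)` gives `A = D₀ + d∞ + div l ∈ 𝒟`, reduced, of degree `d`, avoiding any given finite set
(`exists_reduced`).
-/

set_option autoImplicit false

namespace Fermat.Agent.S17

open AlgebraicCurve Fermat.Agent.S24.FF Fermat.Agent.GAL.FF Fermat.Agent.S27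

namespace RatCurve

variable (X : RatCurve)

/-- one representative, reduced, of degree `d`, avoiding `S`. -/
theorem exists_rep {c : ℤ} (hc : FFK.IsReg Qb X.F c) {d : ℕ} (hd : c + 1 ≤ d) (hd1 : 1 ≤ d)
    {w : Pic0 Qb X.F} (hw : w ∈ X.Gam) (S : Finset (Place Qb X.F)) :
    ∃ A ∈ X.DD, X.degN A = d ∧ X.clD A = w ∧ (∀ P, A P ≤ 1) ∧ ∀ P ∈ S, A P = 0 := by
  classical
  obtain ⟨D0, hdeg0, hcls, hstab⟩ := WM.exists_stable_divisor X.inf w
  have hD0 : ∀ σ : GQ, X.act σ • D0 = D0 := fun σ => hstab _ (X.inf_fixed σ) (hw σ)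
  have hD : ∀ σ : GQ, X.act σ • (D0 + X.nInf d) = D0 + X.nInf d := fun σ => by
    rw [smul_add, hD0 σ, nInf, SemilinearAut.smul_single, X.inf_fixed σ]
  have hdeg : Divisor.degree (D0 + X.nInf d) = d := by
    rw [map_add, hdeg0, nInf, degree_single_one, zero_add]
  obtain ⟨l, hl0, hlr, hnn, hle, hS⟩ := X.exists_reduced hc hD (by rw [hdeg]; exact hd)
    (by rw [hdeg]; exact_mod_cast hd1) (insert X.inf S)
  have hdegA : Divisor.degree (D0 + X.nInf d + divOf Qb l) = d := by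
    rw [map_add, hdeg, degree_divOf, add_zero]
  have hdegN : X.degN (D0 + X.nInf d + divOf Qb l) = d := by
    rw [degN, hdegA, Int.toNat_natCast]
  refine ⟨D0 + X.nInf d + divOf Qb l, ⟨fun P => hnn P, hS _ (Finset.mem_insert_self _ _),
    fun σ => ?_⟩, hdegN, ?_, hle, fun P hP => hS P (Finset.mem_insert_of_mem hP)⟩
  · rw [smul_add, hD σ, X.smul_divOf, hlr σ]
  · rw [clD, hdegN, ← hcls]
    have h1 : Divisor.degree (D0 + X.nInf d + divOf Qb l - X.nInf d) = 0 := by
      rw [map_sub, hdegA, nInf, degree_single_one, sub_self]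
    rw [cls_eq_iff h1 hdeg0]
    refine ⟨l, hl0, fun v => ?_⟩
    simp only [Finsupp.sub_apply, Finsupp.add_apply, divOf_apply]
    ring

end RatCurve

/-- **Contract CMov.** -/
theorem RatCurve.cmov (X : RatCurve) : X.CMov := by
  classical
  obtain ⟨c, hc⟩ := FFK.exists_isReg Qb X.F
  refine ⟨(max (c + 1) 1).toNat, fun d hd x hx y hy z hz => ?_⟩
  have hd' : max (c + 1) 1 ≤ (d : ℤ) := Int.toNat_le.mp hd
  have h1 : c + 1 ≤ (d : ℤ) := le_trans (le_max_left _ _) hd'
  have h2 : 1 ≤ d := by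
    have : (1 : ℤ) ≤ d := le_trans (le_max_right _ _) hd'
    exact_mod_cast this
  obtain ⟨A, hA, hAd, hAx, hA1, -⟩ := X.exists_rep hc h1 h2 hx ∅
  obtain ⟨B, hB, hBd, hBy, hB1, hBS⟩ := X.exists_rep hc h1 h2 hy A.support
  obtain ⟨E, hE, hEd, hEz, hE1, hES⟩ := X.exists_rep hc h1 h2 hz (A.support ∪ B.support)
  refine ⟨A, hA, B, hB, E, hE, hAd, hBd, hEd, hAx, hBy, hEz, fun P => ?_⟩
  simp only [Finsupp.add_apply]
  by_cases hPA : P ∈ A.support
  · rw [hBS P hPA, hES P (Finset.mem_union_left _ hPA), add_zero, add_zero]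
    exact hA1 P
  · rw [Finsupp.notMem_support_iff.1 hPA, zero_add]
    by_cases hPB : P ∈ B.support
    · rw [hES P (Finset.mem_union_right _ hPB), add_zero]
      exact hB1 P
    · rw [Finsupp.notMem_support_iff.1 hPB, zero_add]
      exact hE1 P

end Fermat.Agent.S17
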