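import Fermat.Agent.S17.Defs
import Fermat.Agent.GAL.FF.Riemann
import Fermat.Agent.S27.A.Api

/-!
# S17 / ASM-1 : `HH n` is a class function among divisors of equal degree
-/

set_option autoImplicit false

namespace Fermat.Agent.S17

open AlgebraicCurve Fermat.Agent.S24.FF Fermat.Agent.S27 Fermat.Agent.GAL.FF

section general

variable {K F : Type*} [Field K] [Field F] [Algebra K F]

theorem classFn_ord_smul (g : SemilinearAut K F) (w : Place K F) (f : F) :
    w.ord (g • f) = (g⁻¹ • w).ord f := by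
  have h := SemilinearAut.ord_smul g (g⁻¹ • w) f
  rwa [smul_inv_smul] at h

theorem classFn_smul_mem_L (g : SemilinearAut K F) {D : Divisor K F} (hD : g • D = D) {f : F}
    (hf : f ∈ riemannRochSpace D) : g • f ∈ riemannRochSpace D := by
  rw [mem_riemannRochSpace_iff] at hf ⊢
  intro w
  have hDw : D w = D (g⁻¹ • w) := by
    conv_lhs => rw [← hD]
    exact SemilinearAut.divisor_smul_apply g D w
  rcases hf (g⁻¹ • w) with h | h
  · left
    rw [h, smul_zero]
  · right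
    rw [classFn_ord_smul, hDw]
    exact h

theorem classFn_smul_divOf [IsFF1 K F] (g : SemilinearAut K F) (f : F) :
    g • divOf K f = divOf K (g • f) := by
  ext w
  rw [SemilinearAut.divisor_smul_apply, divOf_apply, divOf_apply, classFn_ord_smul]

/-- `l · L(D) = L(D - div l)`. -/
theorem classFn_map_mulLeft [IsFF1 K F] (D : Divisor K F) {l : F} (hl : l ≠ 0) :
    (riemannRochSpace D).map (LinearMap.mulLeft K l) = riemannRochSpace (D - divOf K l) := by
  ext h
  rw [Submodule.mem_map]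
  constructor
  · rintro ⟨f, hf, rfl⟩
    rw [LinearMap.mulLeft_apply]
    by_cases hf0 : f = 0
    · rw [hf0, mul_zero]
      exact Submodule.zero_mem _
    · rw [mem_L_iff_divOf (mul_ne_zero hl hf0), divOf_mul hl hf0]
      rw [mem_L_iff_divOf hf0] at hf
      have e : D - divOf K l + (divOf K l + divOf K f) = D + divOf K f := by abel
      rwa [e]
  · intro hh
    refine ⟨l⁻¹ * h, ?_, by rw [LinearMap.mulLeft_apply, mul_inv_cancel_left₀ hl]⟩
    by_cases hh0 : h = 0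
    · rw [hh0, mul_zero]
      exact Submodule.zero_mem _
    · rw [mem_L_iff_divOf (mul_ne_zero (inv_ne_zero hl) hh0), divOf_mul (inv_ne_zero hl) hh0,
        divOf_inv]
      rw [mem_L_iff_divOf hh0] at hh
      have e : D + (-divOf K l + divOf K h) = D - divOf K l + divOf K h := by abel
      rwa [e]

end general

/-- the real inequality behind `classFn`. -/
theorem classFn_real (r N C1 C2 C3 S Ll Ll' hA hA' eA eA' eB eAB eAB' : ℝ) (hr : 0 ≤ r)
    (hrN : r ≤ N)
    (a1 : |S - (r * Ll + hA')| ≤ C1) (a2 : |S - (r * Ll' + hA)| ≤ C1)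
    (b1 : |Ll - eAB| ≤ C2) (b2 : |Ll' - eAB'| ≤ C2)
    (c1 : |eAB - eA - eB| ≤ C3) (c2 : |eAB' - eA' - eB| ≤ C3) :
    |(hA - r * eA) - (hA' - r * eA')| ≤ 2 * C1 + N * (2 * C2 + 2 * C3) := by
  have hC2 : 0 ≤ C2 := (abs_nonneg _).trans b1
  have hC3 : 0 ≤ C3 := (abs_nonneg _).trans c1
  have key : (hA - r * eA) - (hA' - r * eA') = (S - (r * Ll + hA')) - (S - (r * Ll' + hA))
      + r * ((Ll - eAB) - (Ll' - eAB') + (eAB - eA - eB) - (eAB' - eA' - eB)) := by ring
  have h1 : |(Ll - eAB) - (Ll' - eAB') + (eAB - eA - eB) - (eAB' - eA' - eB)|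
      ≤ 2 * C2 + 2 * C3 := by
    rw [abs_le] at b1 b2 c1 c2 ⊢
    constructor <;> linarith [b1.1, b1.2, b2.1, b2.2, c1.1, c1.2, c2.1, c2.2]
  have h2 : |r * ((Ll - eAB) - (Ll' - eAB') + (eAB - eA - eB) - (eAB' - eA' - eB))|
      ≤ N * (2 * C2 + 2 * C3) := by
    rw [abs_mul, abs_of_nonneg hr]
    exact mul_le_mul hrN h1 (abs_nonneg _) (hr.trans hrN)
  rw [key]
  rw [abs_le] at a1 a2 h2 ⊢
  constructor <;> linarith [a1.1, a1.2, a2.1, a2.2, h2.1, h2.2]

namespace RatCurve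

variable (X : RatCurve)

theorem classFn_exists_rat {W W' : Submodule Qb X.F} (hfin : Module.Finite Qb W)
    (hst : ∀ σ : GQ, ∀ f ∈ W, X.act σ • f ∈ W) (h : ¬ W ≤ W') :
    ∃ l ∈ W, X.IsRat l ∧ l ∉ W' := by
  by_contra hcon
  push Not at hcon
  apply h
  refine (X.descent W hfin hst).trans (Submodule.span_le.2 ?_)
  rintro f ⟨hf, hr⟩
  exact hcon f hf hr

theorem classFn_degree {A : Divisor Qb X.F} (hA : A ∈ X.DD) :
    Divisor.degree A = (X.degN A : ℤ) := by
  rw [RatCurve.degN, Int.toNat_of_nonneg (degree_nonneg hA.1)]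

theorem classFn_smul_nInf (σ : GQ) (n : ℕ) : X.act σ • X.nInf n = X.nInf n := by
  rw [nInf, SemilinearAut.smul_single, X.inf_fixed]

theorem classFn_degree_nInf (n : ℕ) : Divisor.degree (X.nInf n) = n := by
  rw [nInf, degree_single_one]

theorem classFn_nInf_inf (n : ℕ) : X.nInf n X.inf = n := by
  rw [nInf, Finsupp.single_eq_same]

theorem classFn_nInf_of_ne (n : ℕ) {v : Place Qb X.F} (hv : v ≠ X.inf) : X.nInf n v = 0 := by
  rw [nInf, Finsupp.single_eq_of_ne hv]

theorem classFn_W_stable (n : ℕ) {A : Divisor Qb X.F} (hA : A ∈ X.DD) (σ : GQ) (f : X.F)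
    (hf : f ∈ X.W n A) : X.act σ • f ∈ X.W n A :=
  classFn_smul_mem_L (X.act σ) (by rw [smul_sub, X.classFn_smul_nInf, hA.2.2 σ]) hf

theorem classFn_W_le_V (n : ℕ) {A : Divisor Qb X.F} (hA : A ∈ X.DD) : X.W n A ≤ X.V n :=
  L_mono (sub_le_self _ hA.1)

/-- `Zd l` from the divisor of `l`. -/
theorem classFn_Zd_eq {l : X.F} {E : Divisor Qb X.F} {m : ℕ} (hE : E X.inf = 0)
    (h : divOf Qb l = E - X.nInf m) : X.Zd l = E := by
  ext v
  rw [Zd, h]
  by_cases hv : v = X.inf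
  · rw [hv, Finsupp.erase_same, hE]
  · rw [Finsupp.erase_ne hv, Finsupp.sub_apply, X.classFn_nInf_of_ne m hv, sub_zero]

/-- step (i): a rational function with divisor `A + B - m∞`. -/
theorem classFn_exists_l {c : ℤ}
    (hc : ∀ D : Divisor Qb X.F, c ≤ Divisor.degree D →
      Subsingleton (H1 D) ∧ (GAL.FF.ell D : ℤ) = Divisor.degree D + 1 - genusFF Qb X.F)
    {A : Divisor Qb X.F} (hA : A ∈ X.DD) {m : ℕ} (hm : c + X.degN A + 1 ≤ m) (hm1 : 1 ≤ m) :
    ∃ l : X.F, X.IsRat l ∧ l ≠ 0 ∧ ∃ B ∈ X.DD, X.degN B ≤ m ∧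
      divOf Qb l = A + B - X.nInf m := by
  obtain ⟨m', rfl⟩ : ∃ m' : ℕ, m = m' + 1 := ⟨m - 1, by omega⟩
  have hd1 : Divisor.degree (X.nInf (m' + 1) - A) = ((m' + 1 : ℕ) : ℤ) - X.degN A := by
    rw [map_sub, X.classFn_degree hA, X.classFn_degree_nInf]
  have hd0 : Divisor.degree (X.nInf m' - A) = (m' : ℤ) - X.degN A := by
    rw [map_sub, X.classFn_degree hA, X.classFn_degree_nInf]
  have e1 := (hc _ (by rw [hd1]; push_cast at hm ⊢; omega)).2
  have e0 := (hc _ (by rw [hd0]; push_cast at hm ⊢; omega)).2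
  rw [hd1] at e1
  rw [hd0] at e0
  have hnle : ¬ X.W (m' + 1) A ≤ X.W m' A := by
    intro hle
    have h1 : GAL.FF.ell (X.nInf (m' + 1) - A) ≤ GAL.FF.ell (X.nInf m' - A) :=
      Submodule.finrank_mono hle
    push_cast at e1
    omega
  obtain ⟨l, hl, hrat, hl'⟩ := X.classFn_exists_rat (W := X.W (m' + 1) A) (W' := X.W m' A)
    (finite_L _) (fun σ f hf => X.classFn_W_stable _ hA σ f hf) hnle
  have hl0 : l ≠ 0 := by
    rintro rfl
    exact hl' (Submodule.zero_mem _)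
  have hl1 : ∀ v : Place Qb X.F, -(X.nInf (m' + 1) - A) v ≤ v.ord l := fun v =>
    ((mem_riemannRochSpace_iff.1 hl) v).resolve_left hl0
  -- the order at infinity
  have hinf : X.inf.ord l = -((m' + 1 : ℕ) : ℤ) := by
    have h1 := hl1 X.inf
    rw [Finsupp.sub_apply, X.classFn_nInf_inf, hA.2.1] at h1
    have h2 : ¬ (-(m' : ℤ) ≤ X.inf.ord l) := by
      intro h3
      apply hl'
      refine mem_riemannRochSpace_iff.2 fun v => Or.inr ?_
      by_cases hv : v = X.inf
      · rw [hv, Finsupp.sub_apply, X.classFn_nInf_inf, hA.2.1]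
        omega
      · have h4 := hl1 v
        rw [Finsupp.sub_apply, X.classFn_nInf_of_ne _ hv] at h4 ⊢
        exact h4
    push_cast at h1 ⊢
    omega
  have hZ : divOf Qb l = X.Zd l - X.nInf (m' + 1) := by
    ext v
    rw [Finsupp.sub_apply, Zd, divOf_apply]
    by_cases hv : v = X.inf
    · rw [hv, Finsupp.erase_same, X.classFn_nInf_inf, hinf]
      ring
    · rw [Finsupp.erase_ne hv, X.classFn_nInf_of_ne _ hv, divOf_apply, sub_zero]
  have hZinf : X.Zd l X.inf = 0 := by rw [Zd, Finsupp.erase_same]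
  have hZst : ∀ σ : GQ, X.act σ • X.Zd l = X.Zd l := by
    intro σ
    have h1 : X.Zd l = divOf Qb l + X.nInf (m' + 1) := by rw [hZ]; abel
    rw [h1, smul_add, classFn_smul_divOf, hrat σ, X.classFn_smul_nInf]
  have hB : X.Zd l - A ∈ X.DD := by
    refine ⟨?_, by rw [Finsupp.sub_apply, hZinf, hA.2.1, sub_zero], fun σ => by
      rw [smul_sub, hZst σ, hA.2.2 σ]⟩
    intro v
    rw [Finsupp.zero_apply, Finsupp.sub_apply]
    by_cases hv : v = X.inf
    · rw [hv, hZinf, hA.2.1, sub_zero]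
    · have h4 := hl1 v
      rw [Finsupp.sub_apply, X.classFn_nInf_of_ne _ hv] at h4
      rw [Zd, Finsupp.erase_ne hv, divOf_apply]
      omega
  refine ⟨l, hrat, hl0, X.Zd l - A, hB, ?_, by rw [add_sub_cancel]; exact hZ⟩
  have h1 : Divisor.degree (X.Zd l - A) = ((m' + 1 : ℕ) : ℤ) - X.degN A := by
    have h2 : X.Zd l = divOf Qb l + X.nInf (m' + 1) := by rw [hZ]; abel
    rw [map_sub, h2, map_add, degree_divOf, X.classFn_degree_nInf, X.classFn_degree hA, zero_add]
  rw [X.classFn_degree hB] at h1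
  omega

/-- step (ii): a rational function with divisor `A' - A`. -/
theorem classFn_exists_u {A A' : Divisor Qb X.F} (hA : A ∈ X.DD) (hA' : A' ∈ X.DD)
    (hd : X.degN A = X.degN A') (hcl : X.clD A = X.clD A') :
    ∃ u : X.F, X.IsRat u ∧ u ≠ 0 ∧ divOf Qb u = A' - A := by
  have d1 : Divisor.degree (A - X.nInf (X.degN A)) = 0 := by
    rw [map_sub, X.classFn_degree hA, X.classFn_degree_nInf, sub_self]
  have d2 : Divisor.degree (A' - X.nInf (X.degN A')) = 0 := by
    rw [map_sub, X.classFn_degree hA', X.classFn_degree_nInf, sub_self]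
  obtain ⟨f, hf0, hf⟩ := (cls_eq_iff d1 d2).1 hcl
  have hdf : divOf Qb f = A - A' := by
    ext v
    rw [divOf_apply, ← hf v, hd]
    simp only [Finsupp.sub_apply]
    ring
  have d3 : Divisor.degree (A - A') = 0 := by
    rw [map_sub, X.classFn_degree hA, X.classFn_degree hA', hd, sub_self]
  have hmem : f⁻¹ ∈ riemannRochSpace (A - A') := by
    rw [mem_L_iff_divOf (inv_ne_zero hf0), divOf_inv, hdf, add_neg_cancel]
  have hnle : ¬ riemannRochSpace (A - A') ≤ ⊥ := by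
    intro hle
    exact inv_ne_zero hf0 ((Submodule.mem_bot Qb).1 (hle hmem))
  obtain ⟨u, hu, hrat, hu'⟩ := X.classFn_exists_rat (finite_L _)
    (fun σ f hf => classFn_smul_mem_L (X.act σ) (by rw [smul_sub, hA.2.2 σ, hA'.2.2 σ]) hf) hnle
  have hu0 : u ≠ 0 := fun h => hu' ((Submodule.mem_bot Qb).2 h)
  refine ⟨u, hrat, hu0, ?_⟩
  have h1 := eq_neg_divOf_of_degree_zero d3 hu0 hu
  rw [eq_neg_iff_add_eq_zero] at h1
  rw [← sub_eq_zero, ← h1]
  abel

theorem classFn_finrank_mulSp {l : X.F} (hl : l ≠ 0) (U : Submodule Qb X.F) :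
    Module.finrank Qb (X.mulSp l U) = Module.finrank Qb U :=
  (Submodule.equivMapOfInjective (LinearMap.mulLeft Qb l)
    (fun _ _ hab => mul_left_cancel₀ hl hab) U).finrank_eq.symm

/-- **ASM-1.** `HH n` is a class function among divisors of equal degree. -/
theorem classFn (X : RatCurve) (h1 : X.CGL) (h2 : X.CCH) (h3 : X.CM1) (n d : ℕ) :
    ∃ C : ℝ, ∀ A ∈ X.DD, ∀ A' ∈ X.DD, X.degN A = d → X.degN A' = d → X.clD A = X.clD A' →
      |X.HH n A - X.HH n A'| ≤ C := by
  obtain ⟨c, hc⟩ := exists_degree_bound Qb X.F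
  set m : ℕ := c.toNat + d + 1 with hm
  obtain ⟨C1, hC1⟩ := h3 n m
  obtain ⟨C2, hC2⟩ := h2 m
  obtain ⟨C3, hC3⟩ := h1 m
  refine ⟨2 * C1 + (X.dimV n : ℝ) * (2 * C2 + 2 * C3), ?_⟩
  intro A hA A' hA' hdA hdA' hcl
  have hcn : c ≤ c.toNat := Int.self_le_toNat c
  obtain ⟨l, hlrat, hl0, B, hB, hdB, hdl⟩ := X.classFn_exists_l hc hA (m := m)
    (by rw [hdA, hm]; push_cast; omega) (by omega)
  obtain ⟨u, hurat, hu0, hdu⟩ := X.classFn_exists_u hA hA' (by rw [hdA, hdA']) hcl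
  have hl'0 : l * u ≠ 0 := mul_ne_zero hl0 hu0
  have hl'rat : X.IsRat (l * u) := fun σ => by rw [smul_mul', hlrat σ, hurat σ]
  have hdl' : divOf Qb (l * u) = A' + B - X.nInf m := by
    rw [divOf_mul hl0 hu0, hdl, hdu]
    abel
  have hAB := X.DD.add_mem hA hB
  have hAB' := X.DD.add_mem hA' hB
  have hlV : l ∈ X.V m := by
    rw [V, mem_L_iff_divOf hl0, hdl, add_sub_cancel]
    exact hAB.1
  have hl'V : l * u ∈ X.V m := by
    rw [V, mem_L_iff_divOf hl'0, hdl', add_sub_cancel]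
    exact hAB'.1
  have hZ : X.Zd l = A + B := X.classFn_Zd_eq hAB.2.1 hdl
  have hZ' : X.Zd (l * u) = A' + B := X.classFn_Zd_eq hAB'.2.1 hdl'
  have hmul : X.mulSp l (X.W n A') = X.mulSp (l * u) (X.W n A) := by
    rw [mulSp, mulSp, W, W, classFn_map_mulLeft _ hl0, classFn_map_mulLeft _ hl'0, hdl, hdl']
    congr 1
    abel
  have hfr : Module.finrank Qb (X.W n A') = Module.finrank Qb (X.W n A) := by
    rw [← X.classFn_finrank_mulSp hl0, hmul, X.classFn_finrank_mulSp hl'0]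
  have a1 := hC1 l hlV hlrat hl0 (X.W n A') (X.classFn_W_le_V n hA')
    (fun σ f hf => X.classFn_W_stable n hA' σ f hf)
  have a2 := hC1 (l * u) hl'V hl'rat hl'0 (X.W n A) (X.classFn_W_le_V n hA)
    (fun σ f hf => X.classFn_W_stable n hA σ f hf)
  rw [hmul, hfr] at a1
  have b1 := hC2 l hlV hlrat hl0
  have b2 := hC2 (l * u) hl'V hl'rat hl'0
  rw [hZ] at b1
  rw [hZ'] at b2
  have c1 := hC3 A hA B hB (by rw [hdA, hm]; omega) hdB
  have c2 := hC3 A' hA' B hB (by rw [hdA', hm]; omega) hdB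
  have hrN : (Module.finrank Qb (X.W n A) : ℝ) ≤ (X.dimV n : ℝ) := by
    have hfin : Module.Finite Qb (X.V n) := finite_L _
    have : Module.finrank Qb (X.W n A) ≤ X.dimV n :=
      Submodule.finrank_mono (X.classFn_W_le_V n hA)
    exact_mod_cast this
  rw [HH, HH, hfr]
  exact classFn_real _ _ C1 C2 C3 _ _ _ _ _ _ _ _ _ _ (Nat.cast_nonneg _) hrN a1 a2 b1 b2 c1 c2

end RatCurve

end Fermat.Agent.S17
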