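import Fermat.Agent.S17.GL.MovRat
import Fermat.Agent.S17.FFK.Simple
import Fermat.Agent.S17.FFK.Reg

/-!
# S17 / MOV : a rational Bertini lemma

`D` a `G`-stable divisor of large degree, `S` a finite set of places.  There is a rational
`l ∈ L(D)` such that the effective divisor `D + div l` is reduced and disjoint from `S`.
-/

set_option autoImplicit false

namespace Fermat.Agent.S17

open AlgebraicCurve Fermat.Agent.S24.FF Fermat.Agent.GAL.FF

namespace RatCurve

variable (X : RatCurve)

/-- rational general member: exact order `- D P` at the places of a finite set. -/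
theorem exists_rat_ord_eq {c : ℤ} (hc : FFK.IsReg Qb X.F c) {D : Divisor Qb X.F}
    (hD : ∀ σ : GQ, X.act σ • D = D) (hdeg : c + 1 ≤ Divisor.degree D)
    (T : Finset (Place Qb X.F)) :
    ∃ g ∈ riemannRochSpace D, g ≠ 0 ∧ X.IsRat g ∧ ∀ P ∈ T, P.ord g = - D P := by
  classical
  have hs : ∀ U ∈ (insert X.inf T).image
      (fun P => riemannRochSpace (D - Finsupp.single P 1)), ¬ riemannRochSpace D ≤ U := by
    intro U hU hle
    obtain ⟨P, -, rfl⟩ := Finset.mem_image.1 hU
    have h1 : ell D ≤ ell (D - Finsupp.single P 1) := Submodule.finrank_mono hle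
    have h2 := hc.ell_sub_single hdeg P
    omega
  obtain ⟨g, hg, hgr, hgs⟩ := X.exists_rat_notMem (riemannRochSpace D) inferInstance
    (fun σ f hf => X.smul_mem_L hD σ hf) _ hs
  have hg' : ∀ P ∈ insert X.inf T, g ∉ riemannRochSpace (D - Finsupp.single P 1) :=
    fun P hP => hgs _ (Finset.mem_image.2 ⟨P, hP, rfl⟩)
  have hg0 : g ≠ 0 := by
    rintro rfl
    exact hg' X.inf (Finset.mem_insert_self _ _) (Submodule.zero_mem _)
  refine ⟨g, hg, hg0, hgr, fun P hP => ?_⟩
  by_contra hcon
  exact hg' P (Finset.mem_insert_of_mem hP) ((FFK.mem_L_sub_single_iff hg hg0).2 hcon)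

/-- **rational Bertini**. -/
theorem exists_reduced {c : ℤ} (hc : FFK.IsReg Qb X.F c) {D : Divisor Qb X.F}
    (hD : ∀ σ : GQ, X.act σ • D = D) (hdeg : c + 1 ≤ Divisor.degree D)
    (hdeg' : 1 ≤ Divisor.degree D) (S : Finset (Place Qb X.F)) :
    ∃ l : X.F, l ≠ 0 ∧ X.IsRat l ∧ (∀ P, 0 ≤ (D + divOf Qb l) P) ∧
      (∀ P, (D + divOf Qb l) P ≤ 1) ∧ ∀ P ∈ S, (D + divOf Qb l) P = 0 := by
  classical
  obtain ⟨g, hg, hg0, hgr, hgS⟩ := X.exists_rat_ord_eq hc hD hdeg S
  obtain ⟨f, hf, hf0, hfr, hfT⟩ := X.exists_rat_ord_eq hc hD hdeg (D + divOf Qb g).support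
  have hgL : ∀ P : Place Qb X.F, 0 ≤ D P + P.ord g := fun P => by
    have := ((mem_riemannRochSpace_iff.1 hg) P).resolve_left hg0
    omega
  have hfL : ∀ P : Place Qb X.F, 0 ≤ D P + P.ord f := fun P => by
    have := ((mem_riemannRochSpace_iff.1 hf) P).resolve_left hf0
    omega
  set t : X.F := f / g with ht
  have hordt : ∀ P : Place Qb X.F, P.ord t = P.ord f - P.ord g := fun P => by
    rw [ht, div_eq_mul_inv, P.ord_mul hf0 (inv_ne_zero hg0), P.ord_inv]; ring
  -- `t` has a pole
  have hne : (D + divOf Qb g) ≠ 0 := by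
    intro h0
    have h1 : Divisor.degree (D + divOf Qb g) = Divisor.degree D := by
      rw [map_add, degree_divOf, add_zero]
    rw [h0, map_zero] at h1
    omega
  obtain ⟨P0, hP0⟩ := Finsupp.support_nonempty_iff.2 hne
  have hpole : ∀ P ∈ (D + divOf Qb g).support, P.ord t = -(D P + P.ord g) ∧ P.ord t < 0 := by
    intro P hP
    have h1 := hfT P hP
    rw [Finsupp.mem_support_iff, Finsupp.add_apply, divOf_apply] at hP
    have h2 := hgL P
    rw [hordt P, h1]
    constructor <;> omega
  have httr : Transcendental Qb t :=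
    transcendental_of_ord_ne_zero P0 (by have := (hpole P0 hP0).2; omega)
  -- the bad values
  have hbad1 := FFK.finite_multiple_values httr
  have hbad2 : (⋃ P ∈ S, {a : Qb | 0 < P.ord (t - algebraMap Qb X.F a)}).Finite := by
    refine Set.Finite.biUnion S.finite_toSet fun P _ => Set.Subsingleton.finite ?_
    intro a ha b hb
    exact eq_of_ord_sub_pos P ha hb
  obtain ⟨a, ⟨q, rfl⟩, ha⟩ := (Set.infinite_range_of_injective
    (algebraMap ℚ Qb).injective).exists_notMem_finite (hbad1.union hbad2)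
  rw [Set.mem_union, not_or] at ha
  obtain ⟨ha1, ha2⟩ := ha
  set a : Qb := algebraMap ℚ Qb q with hadef
  have hta : t - algebraMap Qb X.F a ≠ 0 := by
    intro h0
    have h1 := ord_sub_algebraMap_of_pole P0 (hpole P0 hP0).2 a
    rw [h0, Place.ord_zero] at h1
    have := (hpole P0 hP0).2
    omega
  have hl : f - algebraMap Qb X.F a * g = g * (t - algebraMap Qb X.F a) := by
    rw [ht]; field_simp
  have hl0 : f - algebraMap Qb X.F a * g ≠ 0 := by
    rw [hl]; exact mul_ne_zero hg0 hta
  have hval : ∀ P : Place Qb X.F, (D + divOf Qb (f - algebraMap Qb X.F a * g)) P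
      = (D P + P.ord g) + P.ord (t - algebraMap Qb X.F a) := fun P => by
    rw [Finsupp.add_apply, divOf_apply, hl, P.ord_mul hg0 hta]; ring
  -- the two cases
  have hcase1 : ∀ P ∈ (D + divOf Qb g).support,
      (D + divOf Qb (f - algebraMap Qb X.F a * g)) P = 0 := by
    intro P hP
    rw [hval P, ord_sub_algebraMap_of_pole P (hpole P hP).2 a, (hpole P hP).1]
    ring
  have hcase2 : ∀ P ∉ (D + divOf Qb g).support,
      (D + divOf Qb (f - algebraMap Qb X.F a * g)) P = P.ord (t - algebraMap Qb X.F a) := by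
    intro P hP
    rw [Finsupp.notMem_support_iff, Finsupp.add_apply, divOf_apply] at hP
    rw [hval P, hP, zero_add]
  have hlL : f - algebraMap Qb X.F a * g ∈ riemannRochSpace D := by
    have := (riemannRochSpace D).sub_mem hf ((riemannRochSpace D).smul_mem a hg)
    rwa [Algebra.smul_def] at this
  have hnonneg : ∀ P, 0 ≤ (D + divOf Qb (f - algebraMap Qb X.F a * g)) P := fun P => by
    have := ((mem_riemannRochSpace_iff.1 hlL) P).resolve_left hl0
    rw [Finsupp.add_apply, divOf_apply]
    omega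
  refine ⟨f - algebraMap Qb X.F a * g, hl0, IsRat.sub X hfr (IsRat.mul X (X.isRat_algebraMap q) hgr),
    hnonneg, fun P => ?_, fun P hP => ?_⟩
  · by_cases hPT : P ∈ (D + divOf Qb g).support
    · rw [hcase1 P hPT]; exact zero_le_one
    · rw [hcase2 P hPT]
      by_contra hcon
      exact ha1 ⟨P, by omega⟩
  · by_cases hPT : P ∈ (D + divOf Qb g).support
    · exact hcase1 P hPT
    · have h1 := hnonneg P
      rw [hcase2 P hPT] at h1 ⊢
      by_contra hcon
      apply ha2
      rw [Set.mem_iUnion₂]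
      exact ⟨P, hP, by
        show 0 < P.ord (t - algebraMap Qb X.F a)
        omega⟩

end RatCurve

end Fermat.Agent.S17
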