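import Fermat.Agent.S17.Defs

/-!
# S17 / MOV : rational functions in `G`-stable spaces (GS-3)
-/

set_option autoImplicit false

namespace Fermat.Agent.S17

open AlgebraicCurve Fermat.Agent.S24.FF Fermat.Agent.GAL.FF

namespace RatCurve

variable (X : RatCurve)

/-- semilinearity. (`SemilinearAut.smul_algebraMap`, `baseAut_act`, `Algebra.smul_def`, `smul_mul'`.) -/
theorem act_smul (σ : GQ) (a : Qb) (f : X.F) : X.act σ • (a • f) = σ a • (X.act σ • f) := by
  rw [Algebra.smul_def, Algebra.smul_def, smul_mul', SemilinearAut.smul_algebraMap, X.baseAut_act]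
  rfl

theorem IsRat.add {f g : X.F} (hf : X.IsRat f) (hg : X.IsRat g) : X.IsRat (f + g) := by
  intro σ
  rw [smul_add, hf σ, hg σ]

theorem IsRat.sub {f g : X.F} (hf : X.IsRat f) (hg : X.IsRat g) : X.IsRat (f - g) := by
  intro σ
  rw [smul_sub, hf σ, hg σ]

theorem IsRat.mul {f g : X.F} (hf : X.IsRat f) (hg : X.IsRat g) : X.IsRat (f * g) := by
  intro σ
  rw [smul_mul', hf σ, hg σ]

theorem IsRat.inv {f : X.F} (hf : X.IsRat f) : X.IsRat f⁻¹ := by
  intro σ
  rw [smul_inv'', hf σ]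

theorem IsRat.div {f g : X.F} (hf : X.IsRat f) (hg : X.IsRat g) : X.IsRat (f / g) := by
  rw [div_eq_mul_inv]
  exact IsRat.mul X hf (IsRat.inv X hg)

theorem isRat_algebraMap (q : ℚ) : X.IsRat (algebraMap Qb X.F (algebraMap ℚ Qb q)) := by
  intro σ
  rw [SemilinearAut.smul_algebraMap, X.baseAut_act]
  congr 1
  exact σ.commutes q

theorem IsRat.smul_rat {f : X.F} (hf : X.IsRat f) (q : ℚ) :
    X.IsRat (algebraMap ℚ Qb q • f) := by
  intro σ
  rw [act_smul, hf σ, σ.commutes]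

/-- `σ (div f) = div (σ f)`. (`SemilinearAut.divisor_smul_apply`, `Place.ord_smul`.) -/
theorem smul_divOf (σ : GQ) (f : X.F) : X.act σ • divOf Qb f = divOf Qb (X.act σ • f) := by
  ext P
  rw [SemilinearAut.divisor_smul_apply, divOf_apply, divOf_apply]
  have h := SemilinearAut.ord_smul (X.act σ) ((X.act σ)⁻¹ • P) f
  rw [smul_inv_smul] at h
  exact h.symm

/-- `L(D)` is `G`-stable if `D` is. -/
theorem smul_mem_L {D : Divisor Qb X.F} (hD : ∀ σ : GQ, X.act σ • D = D) (σ : GQ) {f : X.F}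
    (hf : f ∈ riemannRochSpace D) : X.act σ • f ∈ riemannRochSpace D := by
  rw [mem_riemannRochSpace_iff] at hf ⊢
  intro v
  rcases hf ((X.act σ)⁻¹ • v) with h | h
  · left
    rw [h, smul_zero]
  · right
    have h1 := SemilinearAut.ord_smul (X.act σ) ((X.act σ)⁻¹ • v) f
    rw [smul_inv_smul] at h1
    have h2 : D ((X.act σ)⁻¹ • v) = D v := by
      rw [← SemilinearAut.divisor_smul_apply, hD]
    rw [h1]
    rwa [h2] at h

/-- **GS-3**: the rational vectors of a finite dimensional `G`-stable space `W` are not contained in a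
finite union of subspaces not containing `W`.
PROOF.  `W₀ = {f ∈ W | IsRat f}` is a `ℚ`-subspace of `F` (restrict scalars), spanning `W` over `ℚ̄` by `X.descent`.
If `W₀ ≤ U` then `W ≤ U`.  So `W₀ ⊓ U` (`U ∈ s`) are proper `ℚ`-subspaces of `W₀`; `ℚ` is infinite:
`Subspace.biUnion_ne_univ_of_top_notMem` (see `FFK/Reg.lean`, `IsReg.exists_ord_eq`). -/
theorem exists_rat_notMem (W : Submodule Qb X.F) (hfin : Module.Finite Qb W)
    (hW : ∀ σ : GQ, ∀ f ∈ W, X.act σ • f ∈ W) (s : Finset (Submodule Qb X.F))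
    (hs : ∀ U ∈ s, ¬ W ≤ U) : ∃ f ∈ W, X.IsRat f ∧ ∀ U ∈ s, f ∉ U := by
  classical
  let _ : Module ℚ X.F := Module.compHom X.F (algebraMap ℚ Qb)
  let W₀ : Submodule ℚ X.F :=
    { carrier := {f | f ∈ W ∧ X.IsRat f}
      zero_mem' := ⟨W.zero_mem, fun σ => smul_zero _⟩
      add_mem' := fun ha hb => ⟨W.add_mem ha.1 hb.1, IsRat.add X ha.2 hb.2⟩
      smul_mem' := fun q f hf => ⟨W.smul_mem _ hf.1, IsRat.smul_rat X hf.2 q⟩ }
  let p : Submodule Qb X.F → Submodule ℚ W₀ := fun U =>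
    { carrier := {x | (x : X.F) ∈ U}
      zero_mem' := U.zero_mem
      add_mem' := fun ha hb => U.add_mem ha hb
      smul_mem' := fun q x hx => U.smul_mem (algebraMap ℚ Qb q) hx }
  have hp : ∀ U ∈ s, p U ≠ ⊤ := by
    intro U hU htop
    apply hs U hU
    refine (X.descent W hfin hW).trans (Submodule.span_le.mpr ?_)
    rintro f ⟨hfW, hfr⟩
    have : (⟨f, hfW, hfr⟩ : W₀) ∈ p U := by rw [htop]; trivial
    exact this
  have hs' : (⊤ : Subspace ℚ W₀) ∉ s.image p := by
    intro hmem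
    obtain ⟨U, hU, hUtop⟩ := Finset.mem_image.1 hmem
    exact hp U hU hUtop
  have hne := Subspace.biUnion_ne_univ_of_top_notMem hs'
  obtain ⟨x, hx⟩ := (Set.ne_univ_iff_exists_notMem _).1 hne
  simp only [Set.mem_iUnion, not_exists, Finset.mem_image] at hx
  exact ⟨x, x.2.1, x.2.2, fun U hU hmem => hx (p U) ⟨U, hU, rfl⟩ hmem⟩

end RatCurve

end Fermat.Agent.S17
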